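import Fermat.Agent.DworkRationality.Splitting
import Mathlib.NumberTheory.Padics.PadicVal.Basic
import Mathlib.Analysis.SpecialFunctions.Pow.Real

/-!
# Preliminaries for the Gross–Koblitz formula

Dwork's `π` with `π ^ (p - 1) = -p`, absolute values of factorials, and series with
`‖coefficient n‖ ≤ R ^ n`, `R < 1`, which may be evaluated on the closed unit disc.
-/

set_option autoImplicit false
set_option linter.unusedSectionVars false

noncomputable section

open Finset Filter Topology PowerSeries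

namespace FA.GrossKoblitz

open FA.DworkRationality

variable {p : ℕ} [hp : Fact p.Prime]

local notation "Cp" => PadicComplex p

variable (p) in
/-- Dwork's `π`, a root of `π ^ (p - 1) = -p`. -/
def dworkPi : Cp :=
  (IsAlgClosed.exists_pow_nat_eq (-(p : Cp)) (Nat.sub_pos_of_lt hp.out.one_lt)).choose

theorem dworkPi_pow : dworkPi p ^ (p - 1) = -(p : Cp) :=
  (IsAlgClosed.exists_pow_nat_eq (-(p : Cp)) (Nat.sub_pos_of_lt hp.out.one_lt)).choose_spec

theorem dworkPi_pow_prime : dworkPi p ^ p = -(p : Cp) * dworkPi p := by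
  rw [← dworkPi_pow, ← pow_succ, Nat.sub_add_cancel hp.out.one_le]

theorem natCast_prime_ne_zero : (p : Cp) ≠ 0 := Nat.cast_ne_zero.2 hp.out.ne_zero

theorem dworkPi_ne_zero : dworkPi p ≠ 0 := fun h => by
  have h1 := dworkPi_pow (p := p)
  rw [h, zero_pow (by have := hp.out.two_le; omega)] at h1
  exact natCast_prime_ne_zero (neg_eq_zero.1 h1.symm)

theorem norm_dworkPi_pow : ‖dworkPi p‖ ^ (p - 1) = ‖(p : Cp)‖ := by
  rw [← norm_pow, dworkPi_pow, norm_neg]

theorem norm_dworkPi_pos : 0 < ‖dworkPi p‖ := norm_pos_iff.2 dworkPi_ne_zero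

theorem norm_prime_pos : 0 < ‖(p : Cp)‖ := norm_pos_iff.2 natCast_prime_ne_zero

theorem norm_prime_eq : ‖(p : Cp)‖ = (p : ℝ)⁻¹ := by
  rw [← map_natCast (algebraMap ℚ_[p] Cp) p]
  change ‖(((p : ℕ) : ℚ_[p]) : Cp)‖ = _
  rw [PadicComplex.norm_extends', Padic.norm_p]

theorem norm_dworkPi_lt_one : ‖dworkPi p‖ < 1 := by
  refine (pow_lt_one_iff_of_nonneg (norm_nonneg _) (n := p - 1) ?_).1 ?_
  · have := hp.out.two_le; omega
  · rw [norm_dworkPi_pow]; exact norm_natCast_prime_lt_one (p := p)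

/-- The absolute value of a natural number prime to `p`. -/
theorem norm_natCast_eq_one {n : ℕ} (hn : ¬ p ∣ n) : ‖(n : Cp)‖ = 1 := by
  rw [← map_natCast (algebraMap ℚ_[p] Cp) n]
  change ‖(((n : ℕ) : ℚ_[p]) : Cp)‖ = 1
  rw [PadicComplex.norm_extends', Padic.norm_natCast_eq_one_iff]
  exact (Nat.Prime.coprime_iff_not_dvd hp.out).2 hn

theorem norm_natCast_eq_pow {n : ℕ} (hn : n ≠ 0) : ‖(n : Cp)‖ = ‖(p : Cp)‖ ^ padicValNat p n := by
  obtain ⟨k, m, hm, rfl⟩ := Nat.exists_eq_pow_mul_and_not_dvd hn p hp.out.ne_one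
  have hm0 : m ≠ 0 := fun h => hm (h ▸ dvd_zero p)
  rw [padicValNat.mul (pow_ne_zero k hp.out.ne_zero) hm0, padicValNat.prime_pow,
    padicValNat.eq_zero_of_not_dvd hm, add_zero, Nat.cast_mul, norm_mul, norm_natCast_eq_one hm,
    mul_one, Nat.cast_pow, norm_pow]

theorem norm_factorial_pow (n : ℕ) :
    ‖(n.factorial : Cp)‖ ^ (p - 1) = ‖(p : Cp)‖ ^ (n - (p.digits n).sum) := by
  rw [norm_natCast_eq_pow n.factorial_ne_zero, ← pow_mul, mul_comm,
    sub_one_mul_padicValNat_factorial]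

/-- `|π| ^ n ≤ |n!|`. -/
theorem norm_pi_pow_le_factorial (n : ℕ) : ‖dworkPi p‖ ^ n ≤ ‖(n.factorial : Cp)‖ := by
  refine (pow_le_pow_iff_left₀ (by positivity) (norm_nonneg _)
    (n := p - 1) (by have := hp.out.two_le; omega)).1 ?_
  rw [norm_factorial_pow, ← pow_mul, mul_comm, pow_mul, norm_dworkPi_pow]
  exact pow_le_pow_of_le_one (norm_nonneg _) (norm_natCast_prime_lt_one (p := p)).le
    (Nat.sub_le _ _)

/-- `|π| ^ n < |n!|` for `n ≠ 0`. -/
theorem norm_pi_pow_lt_factorial {n : ℕ} (hn : n ≠ 0) :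
    ‖dworkPi p‖ ^ n < ‖(n.factorial : Cp)‖ := by
  refine (pow_lt_pow_iff_left₀ (by positivity) (norm_nonneg _)
    (n := p - 1) (by have := hp.out.two_le; omega)).1 ?_
  rw [norm_factorial_pow, ← pow_mul, mul_comm, pow_mul, norm_dworkPi_pow]
  refine pow_lt_pow_right_of_lt_one₀ norm_prime_pos (norm_natCast_prime_lt_one (p := p)) ?_
  have h := sub_one_mul_padicValNat_factorial_lt_of_ne_zero (p := p) hn
  rwa [sub_one_mul_padicValNat_factorial] at h

/-- `|n!| ≤ p (n + 1) |π| ^ n`. -/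
theorem norm_factorial_le (n : ℕ) :
    ‖(n.factorial : Cp)‖ ≤ ‖dworkPi p‖ ^ n * ((p : ℝ) * (n + 1)) := by
  set L := (p.digits n).length with hL
  have hp2 := hp.out.two_le
  have hsum : (p.digits n).sum ≤ L * (p - 1) := by
    refine (List.sum_le_card_nsmul _ _ fun d hd => ?_)
    exact Nat.le_sub_one_of_lt (Nat.digits_lt_base hp.out.one_lt hd)
  have hlen : p ^ L ≤ p * (n + 1) := by
    rcases eq_or_ne n 0 with rfl | hn
    · simp only [hL, Nat.digits_zero, List.length_nil, pow_zero]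
      omega
    · rw [hL, Nat.length_digits p n hp.out.one_lt hn, pow_succ']
      exact Nat.mul_le_mul_left p ((Nat.pow_log_le_self p hn).trans n.le_succ)
  have h1 : ‖(n.factorial : Cp)‖ * ‖(p : Cp)‖ ^ L ≤ ‖dworkPi p‖ ^ n := by
    refine (pow_le_pow_iff_left₀ (by positivity) (by positivity) (n := p - 1) (by omega)).1 ?_
    rw [mul_pow, norm_factorial_pow, pow_right_comm ‖dworkPi p‖, norm_dworkPi_pow, ← pow_mul,
      ← pow_add]
    refine pow_le_pow_of_le_one (norm_nonneg _) (norm_natCast_prime_lt_one (p := p)).le ?_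
    omega
  rw [norm_prime_eq, inv_pow, ← div_eq_mul_inv, div_le_iff₀ (by positivity)] at h1
  refine h1.trans (mul_le_mul_of_nonneg_left ?_ (by positivity))
  exact_mod_cast hlen

/-- Coefficient `n` is at most `R ^ n`. -/
def Overconv (R : ℝ) (f : PowerSeries Cp) : Prop := ∀ n, ‖PowerSeries.coeff n f‖ ≤ R ^ n

theorem Overconv.mono {R S : ℝ} {f : PowerSeries Cp} (hf : Overconv R f) (hR : 0 ≤ R)
    (h : R ≤ S) : Overconv S f := fun n => (hf n).trans (pow_le_pow_left₀ hR h n)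

theorem overconv_one {R : ℝ} (hR : 0 ≤ R) : Overconv R (1 : PowerSeries Cp) := fun n => by
  rw [PowerSeries.coeff_one]
  split_ifs with h
  · simp [h]
  · rw [norm_zero]; positivity

theorem Overconv.mul {R : ℝ} (hR : 0 ≤ R) {f g : PowerSeries Cp} (hf : Overconv R f)
    (hg : Overconv R g) : Overconv R (f * g) := fun n => by
  rw [PowerSeries.coeff_mul]
  refine IsUltrametricDist.norm_sum_le_of_forall_le_of_nonneg (by positivity) fun ij hij => ?_
  rw [norm_mul, ← mem_antidiagonal.1 hij, pow_add]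
  exact mul_le_mul (hf _) (hg _) (norm_nonneg _) (by positivity)

theorem Overconv.pow {R : ℝ} (hR : 0 ≤ R) {f : PowerSeries Cp} (hf : Overconv R f) :
    ∀ m : ℕ, Overconv R (f ^ m)
  | 0 => by rw [pow_zero]; exact overconv_one hR
  | m + 1 => by rw [pow_succ]; exact (Overconv.pow hR hf m).mul hR hf

theorem Overconv.rescale {R : ℝ} {f : PowerSeries Cp} (hf : Overconv R f) {t : Cp}
    (ht : ‖t‖ ≤ 1) : Overconv R (PowerSeries.rescale t f) := fun n => by
  rw [PowerSeries.coeff_rescale, norm_mul, norm_pow]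
  exact (mul_le_of_le_one_left (norm_nonneg _) (pow_le_one₀ (norm_nonneg _) ht)).trans (hf n)

theorem Overconv.prod {R : ℝ} (hR : 0 ≤ R) {ι : Type*} (s : Finset ι) {f : ι → PowerSeries Cp}
    (hf : ∀ i ∈ s, Overconv R (f i)) : Overconv R (∏ i ∈ s, f i) := by
  classical
  induction s using Finset.induction with
  | empty => exact overconv_one hR
  | insert a s ha ih =>
    rw [prod_insert ha]
    exact (hf a (mem_insert_self _ _)).mul hR (ih fun i hi => hf i (mem_insert_of_mem hi))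

/-- A number of absolute value in `[R, 1)`. -/
theorem exists_scale {R : ℝ} (hR : R < 1) : ∃ c : Cp, c ≠ 0 ∧ R ≤ ‖c‖ ∧ ‖c‖ < 1 := by
  set S := max R 0 with hS
  obtain ⟨n, hn⟩ := exists_pow_lt_of_lt_one (norm_prime_pos (p := p))
    (max_lt hR one_pos : S < 1)
  obtain ⟨c, hc⟩ := IsAlgClosed.exists_pow_nat_eq (p : Cp) n.succ_pos
  have hcn : ‖c‖ ^ (n + 1) = ‖(p : Cp)‖ := by rw [← norm_pow, hc]
  refine ⟨c, fun h => ?_, ?_, ?_⟩
  · rw [h, zero_pow n.succ_ne_zero] at hc
    exact natCast_prime_ne_zero hc.symm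
  · refine (le_max_left R 0).trans ((pow_le_pow_iff_left₀ (le_max_right R 0) (norm_nonneg c)
      n.succ_ne_zero).1 ?_)
    rw [hcn]
    exact (pow_le_pow_of_le_one (le_max_right R 0) (max_lt hR one_pos).le n.le_succ).trans hn.le
  · refine (pow_lt_one_iff_of_nonneg (norm_nonneg c) n.succ_ne_zero).1 ?_
    rw [hcn]
    exact norm_natCast_prime_lt_one (p := p)

theorem Overconv.bounded {R : ℝ} (hR : 0 ≤ R) {f : PowerSeries Cp} (hf : Overconv R f) {c : Cp}
    (hc : c ≠ 0) (hRc : R ≤ ‖c‖) : BoundedSeries (PowerSeries.rescale c⁻¹ f) := fun n => by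
  rw [PowerSeries.coeff_rescale, norm_mul, norm_pow, norm_inv, inv_pow]
  rw [inv_mul_le_one₀ (by positivity)]
  exact (hf n).trans (pow_le_pow_left₀ hR hRc n)

theorem evalSeries_eq_rescale (f : PowerSeries Cp) {c : Cp} (hc : c ≠ 0) (x : Cp) :
    evalSeries f x = evalSeries (PowerSeries.rescale c⁻¹ f) (c * x) := by
  rw [evalSeries_rescale, inv_mul_cancel_left₀ hc]

theorem summable_overconv {R : ℝ} (hR : 0 ≤ R) (hR1 : R < 1) {f : PowerSeries Cp}
    (hf : Overconv R f) {x : Cp} (hx : ‖x‖ ≤ 1) :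
    Summable fun k => PowerSeries.coeff k f * x ^ k := by
  refine Summable.of_norm_bounded (summable_geometric_of_lt_one hR hR1) fun k => ?_
  rw [norm_mul, norm_pow]
  exact (mul_le_of_le_one_right (norm_nonneg _) (pow_le_one₀ (norm_nonneg _) hx)).trans (hf k)

theorem evalSeries_mul_overconv {R : ℝ} (hR : 0 ≤ R) (hR1 : R < 1) {f g : PowerSeries Cp}
    (hf : Overconv R f) (hg : Overconv R g) {x : Cp} (hx : ‖x‖ ≤ 1) :
    evalSeries (f * g) x = evalSeries f x * evalSeries g x := by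
  obtain ⟨c, hc, hRc, hc1⟩ := exists_scale (p := p) hR1
  have hcx : ‖c * x‖ < 1 := by
    rw [norm_mul]; exact (mul_le_of_le_one_right (norm_nonneg _) hx).trans_lt hc1
  simp only [evalSeries_eq_rescale _ hc x]
  rw [map_mul, evalSeries_mul (hf.bounded hR hc hRc) (hg.bounded hR hc hRc) hcx]

theorem evalSeries_pow_overconv {R : ℝ} (hR : 0 ≤ R) (hR1 : R < 1) {f : PowerSeries Cp}
    (hf : Overconv R f) {x : Cp} (hx : ‖x‖ ≤ 1) :
    ∀ m : ℕ, evalSeries (f ^ m) x = evalSeries f x ^ m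
  | 0 => by rw [pow_zero, pow_zero, evalSeries_one]
  | m + 1 => by
    rw [pow_succ, pow_succ, evalSeries_mul_overconv hR hR1 (hf.pow hR m) hf hx,
      evalSeries_pow_overconv hR hR1 hf hx m]

theorem evalSeries_prod_overconv {R : ℝ} (hR : 0 ≤ R) (hR1 : R < 1) {ι : Type*} (s : Finset ι)
    {f : ι → PowerSeries Cp} (hf : ∀ i ∈ s, Overconv R (f i)) {x : Cp} (hx : ‖x‖ ≤ 1) :
    evalSeries (∏ i ∈ s, f i) x = ∏ i ∈ s, evalSeries (f i) x := by
  classical
  induction s using Finset.induction with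
  | empty => exact evalSeries_one x
  | insert a s ha ih =>
    have h1 := fun i hi => hf i (mem_insert_of_mem hi)
    rw [prod_insert ha, prod_insert ha, evalSeries_mul_overconv hR hR1
      (hf a (mem_insert_self _ _)) (Overconv.prod hR s h1) hx, ih h1]

theorem tendsto_evalSeries_overconv {R : ℝ} (hR : 0 ≤ R) (hR1 : R < 1) {F : ℕ → PowerSeries Cp}
    {G : PowerSeries Cp} (hF : ∀ N, Overconv R (F N)) (hG : Overconv R G)
    (h : ∀ k, Tendsto (fun N => PowerSeries.coeff k (F N)) atTop (𝓝 (PowerSeries.coeff k G)))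
    {x : Cp} (hx : ‖x‖ ≤ 1) :
    Tendsto (fun N => evalSeries (F N) x) atTop (𝓝 (evalSeries G x)) := by
  obtain ⟨c, hc, hRc, hc1⟩ := exists_scale (p := p) hR1
  have hcx : ‖c * x‖ < 1 := by
    rw [norm_mul]; exact (mul_le_of_le_one_right (norm_nonneg _) hx).trans_lt hc1
  simp only [evalSeries_eq_rescale _ hc x]
  refine tendsto_evalSeries (fun N => (hF N).bounded hR hc hRc) (hG.bounded hR hc hRc)
    (fun k => ?_) hcx
  simp only [PowerSeries.coeff_rescale]
  exact (h k).const_mul _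

theorem evalSeries_expand {l : ℕ} (hl : l ≠ 0) (f : PowerSeries Cp) (x : Cp) :
    evalSeries (PowerSeries.expand l hl f) x = evalSeries f (x ^ l) := by
  have hinj : Function.Injective fun k : ℕ => l * k := mul_right_injective₀ hl
  rw [evalSeries, evalSeries, ← hinj.tsum_eq]
  · exact tsum_congr fun k => by
      show PowerSeries.coeff (l * k) _ * x ^ (l * k) = _
      rw [PowerSeries.coeff_expand_mul, pow_mul]
  · intro n hn
    by_contra h
    refine hn ?_
    show PowerSeries.coeff n _ * x ^ n = 0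
    rw [PowerSeries.coeff_expand_of_not_dvd _ _ _ fun ⟨k, hk⟩ => h ⟨k, hk.symm⟩, zero_mul]

end FA.GrossKoblitz

end
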