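import Mathlib.Data.Nat.Digits.Defs
import Mathlib.Algebra.BigOperators.Group.Finset.Basic
import Mathlib.Algebra.BigOperators.Intervals
import Mathlib.Tactic.Ring
import Mathlib.Tactic.Linarith

/-!
# The rotations of the digits of `a`

For `a < p ^ f - 1` and `i ≤ f` the rotation `a / p ^ i + p ^ (f - i) (a % p ^ i)` is
`a p ^ (f - i)` modulo `p ^ f - 1`.
-/

set_option autoImplicit false

namespace FA.GrossKoblitz

open Finset

variable {p f a i : ℕ}

/-- A rotation of the digits. -/
def rotateDigits (p f a i : ℕ) : ℕ := a / p ^ i + p ^ (f - i) * (a % p ^ i)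

theorem rotateDigits_zero : rotateDigits p f a 0 = a := by
  simp [rotateDigits, Nat.mod_one]

theorem rotateDigits_self (hp : 1 ≤ p) (ha : a < p ^ f - 1) : rotateDigits p f a f = a := by
  have : a < p ^ f := by have := Nat.one_le_pow f p hp; omega
  simp [rotateDigits, Nat.div_eq_of_lt this, Nat.mod_eq_of_lt this]

/-- One rotation. -/
theorem rotateDigits_succ (hi : i < f) :
    p * rotateDigits p f a (i + 1) + a / p ^ i % p =
      rotateDigits p f a i + a / p ^ i % p * p ^ f := by
  set d := a / p ^ i % p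
  have h1 : a / p ^ (i + 1) = a / p ^ i / p := by rw [pow_succ, Nat.div_div_eq_div_mul]
  have h2 : a % p ^ (i + 1) = a % p ^ i + p ^ i * d := Nat.mod_pow_succ
  have h3 : a / p ^ i = p * (a / p ^ i / p) + d := (Nat.div_add_mod _ _).symm
  have h4 : p * p ^ (f - (i + 1)) = p ^ (f - i) := by rw [← pow_succ']; congr 1; omega
  have h5 : p ^ (f - i) * p ^ i = p ^ f := by rw [← pow_add]; congr 1; omega
  rw [rotateDigits, rotateDigits, h1, h2, mul_add, ← mul_assoc, h4, mul_add (p ^ (f - i)),
    ← mul_assoc (p ^ (f - i)), h5]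
  linarith

/-- **The rotation is `a p ^ (f - i)` modulo `p ^ f - 1`.** -/
theorem rotateDigits_eq_mod (hp : 2 ≤ p) (ha : a < p ^ f - 1) (hi : i ≤ f) :
    a * p ^ (f - i) % (p ^ f - 1) = rotateDigits p f a i := by
  have hP : 1 ≤ p ^ i := Nat.one_le_pow _ _ (by omega)
  set R := p ^ (f - i) with hR
  have hQ : R * p ^ i = p ^ f := by rw [hR, ← pow_add]; congr 1; omega
  have hL : a % p ^ i < p ^ i := Nat.mod_lt _ (by omega)
  have haLH : p ^ i * (a / p ^ i) + a % p ^ i = a := Nat.div_add_mod a _
  unfold rotateDigits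
  rw [← hR]
  generalize a % p ^ i = L at hL haLH ⊢
  generalize a / p ^ i = H at haLH ⊢
  have ha' : a + 1 < p ^ f := by omega
  have hH : p ^ i * H < p ^ i * R := by rw [mul_comm _ R, hQ]; omega
  have hH' : H < R := Nat.lt_of_mul_lt_mul_left hH
  have hlt : H + R * L < p ^ f - 1 := by
    rcases eq_or_lt_of_le (Nat.succ_le_of_lt hL) with h | h
    · have h' : L + 1 = p ^ i := h
      have h2 : H + 1 < R := by
        by_contra hc
        have h4 := Nat.mul_le_mul_left (p ^ i) (not_lt.1 hc)
        rw [mul_comm (p ^ i) R, hQ, mul_add, mul_one] at h4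
        omega
      have h3 : R * (L + 1) = p ^ f := by rw [h', hQ]
      rw [mul_add, mul_one] at h3
      omega
    · have h3 : R * (L + 2) ≤ p ^ f := by rw [← hQ]; exact Nat.mul_le_mul_left R h
      rw [mul_add] at h3
      omega
  have hkey : a * R = (H + R * L) + H * (p ^ f - 1) := by
    have h1 : H * (p ^ f - 1) + H = H * p ^ f := by
      conv_rhs => rw [← Nat.sub_add_cancel (by omega : 1 ≤ p ^ f), mul_add, mul_one]
    have h2 : a * R = R * L + H * p ^ f := by rw [← haLH, ← hQ]; ring
    omega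
  rw [hkey, Nat.add_mul_mod_self_right]
  exact Nat.mod_eq_of_lt hlt

theorem sum_digits_eq (hp : 2 ≤ p) : ∀ {f a : ℕ}, a < p ^ f →
    ∑ i ∈ range f, a / p ^ i % p = (p.digits a).sum
  | 0, a, h => by
    obtain rfl : a = 0 := by simpa using h
    simp
  | f + 1, a, h => by
    rcases Nat.eq_zero_or_pos a with rfl | ha
    · simp
    rw [sum_range_succ', Nat.digits_def' (by omega) ha, List.sum_cons,
      ← sum_digits_eq hp (f := f) (a := a / p)
        ((Nat.div_lt_iff_lt_mul (by omega)).2 (by rw [← pow_succ]; exact h)),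
      pow_zero, Nat.div_one, add_comm]
    congr 1
    exact sum_congr rfl fun i _ => by rw [Nat.div_div_eq_div_mul, pow_succ']

end FA.GrossKoblitz
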