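import Fermat.Agent.GrossKoblitz.Recursion
import Mathlib.NumberTheory.Wilson
import Mathlib.FieldTheory.Finite.Basic

/-!
# Morita's `p`-adic Gamma function

For `x = p z - a`, `0 ≤ a < p`, we put `Γ_p x = π ^ (-a) ∑ A (p m + a) (z)_m / (-π) ^ m`, with `A`
the coefficients of Dwork's exponential. It is continuous, is one at zero, and
`Γ_p (x + 1) = -x Γ_p x` for a unit `x`, `-Γ_p x` otherwise: so it is Morita's function.
-/

set_option autoImplicit false
set_option linter.unusedSectionVars false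

noncomputable section

open Finset Filter Topology

namespace FA.GrossKoblitz

open FA.DworkRationality

variable {p : ℕ} [hp : Fact p.Prime]

local notation "Cp" => PadicComplex p

theorem toZMod_eq_zero_iff {x : ℤ_[p]} : PadicInt.toZMod x = 0 ↔ (p : ℤ_[p]) ∣ x := by
  rw [← RingHom.mem_ker, PadicInt.ker_toZMod, PadicInt.maximalIdeal_eq_span_p,
    Ideal.mem_span_singleton]

theorem toZMod_eq_of_norm_lt {x y : ℤ_[p]} (h : ‖x - y‖ < 1) :
    PadicInt.toZMod x = PadicInt.toZMod y := by
  rw [← sub_eq_zero, ← map_sub, toZMod_eq_zero_iff]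
  exact (PadicInt.norm_lt_one_iff_dvd _).1 h

/-- The residue of `-x`. -/
def gammaDigit (x : ℤ_[p]) : ℕ := (PadicInt.toZMod (-x)).val

theorem gammaDigit_lt (x : ℤ_[p]) : gammaDigit x < p := ZMod.val_lt _

theorem exists_gammaQuot (x : ℤ_[p]) : ∃ z : ℤ_[p], (p : ℤ_[p]) * z = x + gammaDigit x := by
  have h : (p : ℤ_[p]) ∣ x + gammaDigit x := by
    rw [← toZMod_eq_zero_iff, map_add, map_natCast, gammaDigit, ZMod.natCast_rightInverse,
      map_neg, add_neg_cancel]
  obtain ⟨z, hz⟩ := h
  exact ⟨z, hz.symm⟩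

/-- `(x + a) / p`. -/
def gammaQuot (x : ℤ_[p]) : ℤ_[p] := (exists_gammaQuot x).choose

theorem gammaQuot_spec (x : ℤ_[p]) : (p : ℤ_[p]) * gammaQuot x = x + gammaDigit x :=
  (exists_gammaQuot x).choose_spec

variable (p) in
/-- **Morita's Gamma function.** -/
def padicGamma (x : ℤ_[p]) : Cp :=
  gkSum p 1 (gammaDigit x) (gammaQuot x) / dworkPi p ^ gammaDigit x

theorem padicInt_prime_ne_zero : (p : ℤ_[p]) ≠ 0 := Nat.cast_ne_zero.2 hp.out.ne_zero

theorem gammaDigit_mul_sub {a : ℕ} (ha : a < p) (z : ℤ_[p]) :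
    gammaDigit ((p : ℤ_[p]) * z - (a : ℤ_[p])) = a := by
  rw [gammaDigit, map_neg, map_sub, map_mul, map_natCast, map_natCast, ZMod.natCast_self, zero_mul,
    zero_sub, neg_neg, ZMod.val_natCast_of_lt ha]

theorem padicGamma_mul_sub {a : ℕ} (ha : a < p) (z : ℤ_[p]) :
    padicGamma p ((p : ℤ_[p]) * z - (a : ℤ_[p])) = gkSum p 1 a z / dworkPi p ^ a := by
  have h := gammaQuot_spec ((p : ℤ_[p]) * z - (a : ℤ_[p]))
  rw [gammaDigit_mul_sub ha, sub_add_cancel] at h
  rw [padicGamma, gammaDigit_mul_sub ha, mul_left_cancel₀ padicInt_prime_ne_zero h]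

/-- Every element is `p z - a`. -/
theorem exists_eq_mul_sub (x : ℤ_[p]) :
    ∃ (a : ℕ) (z : ℤ_[p]), a < p ∧ x = (p : ℤ_[p]) * z - (a : ℤ_[p]) :=
  ⟨gammaDigit x, gammaQuot x, gammaDigit_lt x, by rw [gammaQuot_spec, add_sub_cancel_right]⟩

theorem continuous_padicGamma : Continuous (padicGamma p) := by
  refine continuous_iff_continuousAt.2 fun x => ?_
  have hev : ∀ᶠ y in 𝓝 x, gammaDigit y = gammaDigit x := by
    filter_upwards [Metric.ball_mem_nhds x one_pos] with y hy
    rw [gammaDigit, gammaDigit, toZMod_eq_of_norm_lt (x := -y) (y := -x)]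
    rw [← norm_neg]
    simpa [dist_eq_norm, sub_eq_add_neg, add_comm] using hy
  have hq : ContinuousAt gammaQuot x := by
    refine Metric.continuousAt_iff.2 fun ε hε => ?_
    refine ⟨min 1 (ε / p), lt_min one_pos (div_pos hε (Nat.cast_pos.2 hp.out.pos)), fun y hy => ?_⟩
    rw [lt_min_iff, dist_eq_norm] at hy
    have hd : gammaDigit y = gammaDigit x := by
      rw [gammaDigit, gammaDigit, toZMod_eq_of_norm_lt (x := -y) (y := -x)]
      rw [← norm_neg]
      simpa [sub_eq_add_neg, add_comm] using hy.1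
    have h : (p : ℤ_[p]) * (gammaQuot y - gammaQuot x) = y - x := by
      rw [mul_sub, gammaQuot_spec, gammaQuot_spec, hd]
      ring
    have h2 := congrArg (‖·‖) h
    simp only [norm_mul, PadicInt.norm_p] at h2
    have hp0 : (0 : ℝ) < p := Nat.cast_pos.2 hp.out.pos
    rw [dist_eq_norm]
    calc ‖gammaQuot y - gammaQuot x‖ = p * ((p : ℝ)⁻¹ * ‖gammaQuot y - gammaQuot x‖) := by
          field_simp
      _ < p * (ε / p) := by rw [h2]; exact mul_lt_mul_of_pos_left hy.2 hp0
      _ = ε := by field_simp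
  refine (((continuous_gkSum 1 (gammaDigit x : ℤ)).continuousAt.comp hq).div_const
    (dworkPi p ^ gammaDigit x)).congr ?_
  filter_upwards [hev] with y hy
  simp [padicGamma, hy]

theorem padicGamma_zero : padicGamma p 0 = 1 := by
  have h := padicGamma_mul_sub (p := p) (a := 0) hp.out.pos 0
  rw [mul_zero, Nat.cast_zero, sub_zero, pow_zero, div_one, gkSum_eq_zero_add, map_zero, neg_zero,
    zero_div, zero_mul, add_zero] at h
  rw [h, Nat.cast_zero, ← Nat.cast_zero, thetaCoeff_natCast, coeff_zero_thetaSeries]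

/-- **`Γ_p (x + 1) = -x Γ_p x` at units.** -/
theorem padicGamma_add_one_of_not_dvd {x : ℤ_[p]} (hx : ¬ (p : ℤ_[p]) ∣ x) :
    padicGamma p (x + 1) = -toCp p x * padicGamma p x := by
  obtain ⟨a, z, ha, rfl⟩ := exists_eq_mul_sub x
  rcases a with _ | b
  · exact absurd ⟨z, by simp⟩ hx
  have h := gkSum_sub (p := p) 1 (b + 1) (by rwa [pow_one]) z 1
  rw [piRising_succ, piRising_zero, one_mul, pow_one, Nat.cast_one, Nat.cast_zero, add_zero,
    show ((b + 1 : ℕ) : ℤ) - 1 = (b : ℤ) by push_cast; ring] at h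
  rw [show (p : ℤ_[p]) * z - ((b + 1 : ℕ) : ℤ_[p]) + 1 = (p : ℤ_[p]) * z - (b : ℤ_[p]) by
    push_cast; ring, padicGamma_mul_sub (by omega), padicGamma_mul_sub ha, h, pow_succ]
  field_simp [dworkPi_ne_zero (p := p)]

/-- **`Γ_p (x + 1) = -Γ_p x` at the multiples of `p`.** -/
theorem padicGamma_add_one_of_dvd {x : ℤ_[p]} (hx : (p : ℤ_[p]) ∣ x) :
    padicGamma p (x + 1) = -padicGamma p x := by
  obtain ⟨z, rfl⟩ := hx
  have hp1 := hp.out.two_le
  have key : ∀ w : ℤ_[p],
      gkSum p 1 ((p - 1 : ℕ) : ℤ) (w + 1) = (p : Cp) * gkSum p 1 (0 : ℕ) w := by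
    intro w
    -- away from zero
    have hne : ∀ v : ℤ_[p], v ≠ 0 →
        gkSum p 1 ((p - 1 : ℕ) : ℤ) (v + 1) = (p : Cp) * gkSum p 1 (0 : ℕ) v := by
      intro v hv
      have hv0 : toCp p v ≠ 0 := by
        rw [← norm_ne_zero_iff, norm_toCp, norm_ne_zero_iff]
        exact hv
      have h := gkSum_sub (p := p) 1 0 (by positivity) v 1
      simp only [piRising_succ, piRising_zero, one_mul, pow_one, Nat.cast_zero, Nat.cast_one,
        zero_sub, sub_zero, add_zero, map_mul, map_natCast] at h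
      have h' := gkSum_eq_zero_add (p := p) 1 (-1) v
      rw [thetaCoeff_of_neg 1 (by norm_num : (-1 : ℤ) < 0), zero_add, pow_one,
        show (-1 : ℤ) + (p : ℤ) = ((p - 1 : ℕ) : ℤ) by omega] at h'
      rw [h] at h'
      rw [Nat.cast_zero]
      refine mul_left_cancel₀ hv0 ?_
      field_simp [dworkPi_ne_zero (p := p)] at h'
      linear_combination (toCp p v) * h'
    rcases eq_or_ne w 0 with rfl | hw
    · have hlim : Tendsto (fun n : ℕ => (p : ℤ_[p]) ^ n) atTop (𝓝 0) :=
        tendsto_pow_atTop_nhds_zero_of_norm_lt_one (by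
          rw [PadicInt.norm_p]; exact inv_lt_one_of_one_lt₀ (by exact_mod_cast hp1))
      refine tendsto_nhds_unique
        ((((continuous_gkSum 1 _).comp (continuous_add_const 1)).tendsto 0).comp hlim) ?_
      refine (((continuous_gkSum 1 _).const_mul _ |>.tendsto 0).comp hlim).congr fun n => ?_
      exact (hne _ (pow_ne_zero n padicInt_prime_ne_zero)).symm
    · exact hne w hw
  rw [show (p : ℤ_[p]) * z + 1 = (p : ℤ_[p]) * (z + 1) - ((p - 1 : ℕ) : ℤ_[p]) by
    rw [Nat.cast_sub (by omega)]; push_cast; ring, padicGamma_mul_sub (by omega), key z,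
    dworkPi_pow]
  have h0 := padicGamma_mul_sub (p := p) (a := 0) hp.out.pos z
  rw [Nat.cast_zero, sub_zero] at h0
  rw [h0, pow_zero, div_one]
  field_simp [natCast_prime_ne_zero (p := p)]

/-- **The values at the natural numbers.** -/
theorem padicGamma_natCast (n : ℕ) : padicGamma p (n : ℤ_[p]) =
    (-1) ^ n * ∏ j ∈ (range n).filter (fun j => ¬ p ∣ j), (j : Cp) := by
  induction n with
  | zero => simpa using padicGamma_zero
  | succ n ih =>
    have hiff : (p : ℤ_[p]) ∣ (n : ℤ_[p]) ↔ p ∣ n := by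
      rw [← toZMod_eq_zero_iff, map_natCast, ZMod.natCast_eq_zero_iff]
    rw [Nat.cast_succ, range_add_one, filter_insert]
    by_cases h : p ∣ n
    · rw [if_neg (not_not.2 h), padicGamma_add_one_of_dvd (hiff.2 h), ih, pow_succ]
      ring
    · rw [if_pos h, prod_insert (by simp), padicGamma_add_one_of_not_dvd (mt hiff.1 h), ih,
        map_natCast, pow_succ]
      ring

theorem isClosed_norm_eq_one : IsClosed {x : ℤ_[p] | ‖padicGamma p x‖ = 1} :=
  isClosed_eq continuous_padicGamma.norm continuous_const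

/-- **The values are units.** -/
theorem norm_padicGamma (x : ℤ_[p]) : ‖padicGamma p x‖ = 1 :=
  PadicInt.denseRange_natCast.induction_on x isClosed_norm_eq_one fun n => by
    rw [padicGamma_natCast, norm_mul, norm_pow, norm_neg, norm_one, one_pow, one_mul, norm_prod]
    exact prod_eq_one fun j hj => norm_natCast_eq_one (mem_filter.1 hj).2

/-- **The values are `p`-adic integers.** -/
theorem exists_padicGamma_eq (x : ℤ_[p]) : ∃ u : ℤ_[p]ˣ, toCp p (u : ℤ_[p]) = padicGamma p x := by
  have hcl : IsClosed {x : ℤ_[p] | padicGamma p x ∈ Set.range (toCp p)} :=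
    (isCompact_range continuous_toCp).isClosed.preimage continuous_padicGamma
  have h : padicGamma p x ∈ Set.range (toCp p) :=
    PadicInt.denseRange_natCast.induction_on x hcl fun n => by
      refine ⟨(-1) ^ n * ∏ j ∈ (range n).filter (fun j => ¬ p ∣ j), (j : ℤ_[p]), ?_⟩
      rw [padicGamma_natCast, map_mul, map_pow, map_neg, map_one, map_prod]
      simp
  obtain ⟨y, hy⟩ := h
  have hy1 : IsUnit y := PadicInt.isUnit_iff.2 (by rw [← norm_toCp, hy, norm_padicGamma])
  exact ⟨hy1.unit, hy⟩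

/-- **Uniqueness.** -/
theorem padicGamma_unique {g : ℤ_[p] → Cp} (hg : Continuous g) (h0 : g 0 = 1)
    (h1 : ∀ n : ℕ, g (n + 1 : ℕ) = if p ∣ n then -g n else -(n : Cp) * g n) : g = padicGamma p := by
  refine PadicInt.denseRange_natCast.equalizer hg continuous_padicGamma (funext fun n => ?_)
  simp only [Function.comp_apply]
  induction n with
  | zero => rw [Nat.cast_zero, h0, padicGamma_zero]
  | succ n ih =>
    have hiff : (p : ℤ_[p]) ∣ (n : ℤ_[p]) ↔ p ∣ n := by
      rw [← toZMod_eq_zero_iff, map_natCast, ZMod.natCast_eq_zero_iff]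
    rw [h1, ih, Nat.cast_succ]
    split_ifs with h
    · rw [padicGamma_add_one_of_dvd (hiff.2 h)]
    · rw [padicGamma_add_one_of_not_dvd (mt hiff.1 h), map_natCast]

/-- The unit value. -/
def gammaUnit (x : ℤ_[p]) : ℤ_[p] := ((exists_padicGamma_eq x).choose : ℤ_[p]ˣ)

theorem toCp_gammaUnit (x : ℤ_[p]) : toCp p (gammaUnit x) = padicGamma p x :=
  (exists_padicGamma_eq x).choose_spec

theorem toCp_injective : Function.Injective (toCp p) := fun x y h => by
  rw [← sub_eq_zero, ← map_sub, ← norm_eq_zero, norm_toCp, norm_eq_zero] at h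
  exact sub_eq_zero.1 h

/-- The factor of the functional equation modulo `p`. -/
def wilsonFactor (c : ZMod p) : ZMod p := if c = 0 then -1 else -c

theorem toZMod_gammaUnit_add_one (x : ℤ_[p]) :
    PadicInt.toZMod (gammaUnit (x + 1)) =
      wilsonFactor (PadicInt.toZMod x) * PadicInt.toZMod (gammaUnit x) := by
  by_cases h : (p : ℤ_[p]) ∣ x
  · have e : gammaUnit (x + 1) = -gammaUnit x := toCp_injective (by
      rw [map_neg, toCp_gammaUnit, toCp_gammaUnit, padicGamma_add_one_of_dvd h])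
    rw [e, map_neg, wilsonFactor, if_pos (toZMod_eq_zero_iff.2 h), neg_one_mul]
  · have e : gammaUnit (x + 1) = -x * gammaUnit x := toCp_injective (by
      rw [map_mul, map_neg, toCp_gammaUnit, toCp_gammaUnit, padicGamma_add_one_of_not_dvd h])
    rw [e, map_mul, map_neg, wilsonFactor, if_neg (mt toZMod_eq_zero_iff.1 h)]

theorem prod_wilsonFactor : ∏ c : ZMod p, wilsonFactor c = 1 := by
  classical
  rw [← mul_prod_erase univ _ (mem_univ (0 : ZMod p)), wilsonFactor, if_pos rfl]
  have h : ∏ c ∈ univ.erase (0 : ZMod p), wilsonFactor c = ∏ u : (ZMod p)ˣ, -(u : ZMod p) :=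
    (prod_bij (fun (u : (ZMod p)ˣ) _ => (u : ZMod p))
      (fun u _ => mem_erase.2 ⟨u.ne_zero, mem_univ _⟩) (fun u _ v _ e => Units.ext e)
      (fun c hc => ⟨Units.mk0 c (ne_of_mem_erase hc), mem_univ _, rfl⟩)
      fun u _ => by rw [wilsonFactor, if_neg u.ne_zero]).symm
  have hw : ∏ u : (ZMod p)ˣ, (u : ZMod p) = -1 := by
    have h1 := congrArg Units.val (FiniteField.prod_univ_units_id_eq_neg_one (K := ZMod p))
    rw [← Units.coeHom_apply, map_prod] at h1
    simpa using h1
  rw [h, prod_neg, hw, card_univ, ZMod.card_units, ← mul_assoc, mul_comm (-1 : ZMod p),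
    mul_assoc, neg_one_mul, neg_neg, mul_one]
  rcases hp.out.eq_two_or_odd' with rfl | hodd
  · rw [show 2 - 1 = 1 from rfl, pow_one]
    exact CharTwo.neg_eq 1
  · exact (Nat.Odd.sub_odd hodd odd_one).neg_one_pow

theorem toZMod_gammaUnit_add_prime (x : ℤ_[p]) :
    PadicInt.toZMod (gammaUnit (x + (p : ℤ_[p]))) = PadicInt.toZMod (gammaUnit x) := by
  have h : ∀ k : ℕ, PadicInt.toZMod (gammaUnit (x + (k : ℤ_[p]))) =
      (∏ i ∈ range k, wilsonFactor (PadicInt.toZMod x + (i : ZMod p))) *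
        PadicInt.toZMod (gammaUnit x) := by
    intro k
    induction k with
    | zero => simp
    | succ k ih =>
      rw [Nat.cast_succ, ← add_assoc, toZMod_gammaUnit_add_one, ih, map_add, map_natCast,
        prod_range_succ]
      ring
  rw [h p]
  have he : ∏ i ∈ range p, wilsonFactor (PadicInt.toZMod x + (i : ZMod p)) =
      ∏ c : ZMod p, wilsonFactor c :=
    prod_bij (fun i _ => PadicInt.toZMod x + (i : ZMod p)) (fun i _ => mem_univ _)
      (fun i hi j hj e => by
        have := congrArg ZMod.val (add_left_cancel e)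
        rwa [ZMod.val_natCast_of_lt (mem_range.1 hi), ZMod.val_natCast_of_lt (mem_range.1 hj)]
          at this)
      (fun c _ => ⟨(c - PadicInt.toZMod x).val, mem_range.2 (ZMod.val_lt _), by
        rw [ZMod.natCast_rightInverse, add_sub_cancel]⟩)
      fun i _ => rfl
  rw [he, prod_wilsonFactor, one_mul]

/-- **`Γ_p` modulo `p` depends only on the residue.** -/
theorem norm_padicGamma_sub_lt {x y : ℤ_[p]} (h : (p : ℤ_[p]) ∣ x - y) :
    ‖padicGamma p x - padicGamma p y‖ < 1 := by
  obtain ⟨z, hz⟩ := h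
  obtain rfl : x = y + (p : ℤ_[p]) * z := by rw [← hz]; ring
  have hcl : IsClosed {z : ℤ_[p] | ‖padicGamma p (y + (p : ℤ_[p]) * z) - padicGamma p y‖ < 1} := by
    have h1 := (IsUltrametricDist.isClosed_ball (padicGamma p y) 1).preimage
      (continuous_padicGamma.comp
        ((continuous_const_add y).comp (continuous_const_mul (p : ℤ_[p]))))
    simpa [Set.preimage, dist_eq_norm] using h1
  refine PadicInt.denseRange_natCast.induction_on z hcl fun k => ?_
  have hk : PadicInt.toZMod (gammaUnit (y + (p : ℤ_[p]) * (k : ℤ_[p]))) =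
      PadicInt.toZMod (gammaUnit y) := by
    induction k with
    | zero => simp
    | succ k ih =>
      rw [show y + (p : ℤ_[p]) * ((k + 1 : ℕ) : ℤ_[p]) =
          y + (p : ℤ_[p]) * (k : ℤ_[p]) + (p : ℤ_[p]) by
        push_cast; ring,
        toZMod_gammaUnit_add_prime, ih]
  rw [← toCp_gammaUnit, ← toCp_gammaUnit, ← map_sub, norm_toCp]
  refine (PadicInt.norm_lt_one_iff_dvd _).2 ?_
  rw [← toZMod_eq_zero_iff, map_sub, hk, sub_self]

/-- `a! Γ_p (-a) = 1`. -/
theorem padicGamma_neg_natCast {a : ℕ} (ha : a < p) :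
    (a.factorial : Cp) * padicGamma p (-(a : ℤ_[p])) = 1 := by
  induction a with
  | zero => simp [padicGamma_zero]
  | succ a ih =>
    have hnd : ¬ (p : ℤ_[p]) ∣ -((a + 1 : ℕ) : ℤ_[p]) := by
      rw [dvd_neg, ← toZMod_eq_zero_iff, map_natCast, ZMod.natCast_eq_zero_iff]
      exact Nat.not_dvd_of_pos_of_lt a.succ_pos ha
    have h := padicGamma_add_one_of_not_dvd hnd
    rw [show -((a + 1 : ℕ) : ℤ_[p]) + 1 = -(a : ℤ_[p]) by push_cast; ring, map_neg, neg_neg,
      map_natCast] at h
    have h' := ih (by omega)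
    rw [h] at h'
    rw [Nat.factorial_succ, Nat.cast_mul]
    linear_combination h'

end FA.GrossKoblitz

end
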