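import Fermat.Agent.GrossKoblitz.Theta

/-!
# The splitting property of `θ`

`θ (1)` is a primitive `p`th root of unity, and for a Teichmüller representative `t` with
`t ^ q = t`, `q = p ^ f`, the value `exp (π (X - X ^ q))` at `t` is `θ (1)` to the power of the
trace.
-/

set_option autoImplicit false
set_option linter.unusedSectionVars false

noncomputable section

open Finset Filter Topology PowerSeries

namespace FA.GrossKoblitz

open FA.DworkRationality FA.Mazur

variable {p : ℕ} [hp : Fact p.Prime]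

local notation "Cp" => PadicComplex p

variable (p) in
/-- `θ (1)`. -/
def dworkRoot : Cp := evalSeries (thetaSeries p 1) 1

theorem overconv_theta_one : Overconv (dworkRadius p) (thetaSeries p 1) := small_thetaSeries.2.1

theorem evalSeries_thetaSeries (f : ℕ) {x : Cp} (hx : ‖x‖ ≤ 1) :
    evalSeries (thetaSeries p f) x = ∏ i ∈ range f, evalSeries (thetaSeries p 1) (x ^ p ^ i) := by
  induction f with
  | zero => rw [thetaSeries_zero, evalSeries_one, range_zero, prod_empty]
  | succ f ih =>
    obtain ⟨R, hr, hR1, hR⟩ := exists_overconv_thetaSeries (p := p) (f + 1)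
    obtain ⟨S, hs, hS1, hS⟩ := exists_overconv_thetaSeries (p := p) f
    have hS0 : 0 ≤ S := dworkRadius_nonneg.trans hs
    have hq : p ^ f ≠ 0 := pow_ne_zero f hp.out.ne_zero
    set T : ℝ := dworkRadius p ^ ((((p ^ f : ℕ) : ℝ))⁻¹)
    have hT : T ^ (p ^ f) = dworkRadius p := Real.rpow_inv_natCast_pow dworkRadius_nonneg hq
    have hT0 : 0 ≤ T := Real.rpow_nonneg dworkRadius_nonneg _
    have hT1 : T < 1 := by
      refine (pow_lt_one_iff_of_nonneg hT0 hq).1 ?_
      rw [hT]; exact dworkRadius_lt_one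
    have hexp : Overconv T (expand (p ^ f) hq (thetaSeries p 1)) := fun n => by
      by_cases h : p ^ f ∣ n
      · obtain ⟨j, rfl⟩ := h
        rw [coeff_expand_mul, pow_mul, hT]
        exact overconv_theta_one j
      · rw [coeff_expand_of_not_dvd _ _ _ h, norm_zero]
        exact pow_nonneg hT0 _
    rw [thetaSeries_succ, evalSeries_mul_overconv (hS0.trans (le_max_left S T))
      (max_lt hS1 hT1) (hS.mono hS0 (le_max_left _ _)) (hexp.mono hT0 (le_max_right _ _)) hx, ih,
      evalSeries_expand, prod_range_succ]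

/-- **`θ (1) ^ p = 1`.** -/
theorem dworkRoot_pow : dworkRoot p ^ p = 1 := by
  set u : Cp := (p : Cp) * dworkPi p with hu
  have hu1 : ‖u‖ ≤ ‖(p : Cp)‖ * ‖dworkPi p‖ := (norm_mul _ _).le
  -- `exp (± u X)` may be evaluated at one
  have hoc : ∀ c : Cp, ‖c‖ = ‖u‖ → Overconv ‖(p : Cp)‖ (expLinear c) := fun c hc n => by
    rw [norm_coeff_expLinear, div_le_iff₀ (norm_pos_iff.2 (Nat.cast_ne_zero.2 n.factorial_ne_zero)),
      hc]
    refine (pow_le_pow_left₀ (norm_nonneg _) hu1 n).trans ?_
    rw [mul_pow]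
    exact mul_le_mul_of_nonneg_left (norm_pi_pow_le_factorial n) (by positivity)
  have hP1 : ‖(p : Cp)‖ < 1 := norm_natCast_prime_lt_one (p := p)
  set R : ℝ := max ‖(p : Cp)‖ (dworkRadius p) with hR
  have hR0 : 0 ≤ R := (norm_nonneg _).trans (le_max_left _ _)
  have hR1 : R < 1 := max_lt hP1 dworkRadius_lt_one
  set S : ℝ := R ^ (((p : ℝ))⁻¹) with hSdef
  have hS : S ^ p = R := Real.rpow_inv_natCast_pow hR0 hp.out.ne_zero
  have hS0 : 0 ≤ S := Real.rpow_nonneg hR0 _
  have hS1 : S < 1 := (pow_lt_one_iff_of_nonneg hS0 hp.out.ne_zero).1 (hS.le.trans_lt hR1)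
  have hRS : R ≤ S := by
    rw [← hS]
    exact pow_le_of_le_one hS0 hS1.le hp.out.ne_zero
  have hexp : Overconv S (expand p hp.out.ne_zero (expLinear (-u))) := fun n => by
    by_cases h : p ∣ n
    · obtain ⟨j, rfl⟩ := h
      rw [coeff_expand_mul, pow_mul, hS]
      exact (hoc _ (norm_neg _) j).trans (pow_le_pow_left₀ (norm_nonneg _) (le_max_left _ _) j)
    · rw [coeff_expand_of_not_dvd _ _ _ h, norm_zero]
      exact pow_nonneg hS0 _
  have hsplit : thetaSeries p 1 ^ p =
      expLinear u * expand p hp.out.ne_zero (expLinear (-u)) := by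
    refine ((isExpOf_thetaSeries 1).nsmul p).unique ?_
    have h : p • thetaExponent p 1 = C u * X + expand p hp.out.ne_zero (C (-u) * X) := by
      simp only [thetaExponent, hu, map_neg, map_mul, expand_C, expand_X, nsmul_eq_mul, pow_one,
        map_natCast, neg_mul]
      ring
    rw [h]
    exact (isExpOf_expLinear u).mul ((isExpOf_expLinear (-u)).expand _)
  have hinv : expLinear u * expLinear (-u) = 1 :=
    ((isExpOf_expLinear u).mul (isExpOf_expLinear (-u))).unique (by
      rw [map_neg, ← add_mul, add_neg_cancel, zero_mul]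
      exact isExpOf_zero)
  have h1 : ‖(1 : Cp)‖ ≤ 1 := norm_one.le
  rw [dworkRoot, ← evalSeries_pow_overconv dworkRadius_nonneg dworkRadius_lt_one overconv_theta_one
    h1, hsplit, evalSeries_mul_overconv hS0 hS1
      ((hoc u rfl).mono (norm_nonneg _) ((le_max_left _ _).trans hRS)) hexp h1,
    evalSeries_expand, one_pow, ← evalSeries_mul_overconv (norm_nonneg _) hP1 (hoc u rfl)
      (hoc (-u) (norm_neg _)) h1, hinv, evalSeries_one]

/-- **`θ (1) ≡ 1 + π` to higher order than `π`.** -/
theorem norm_dworkRoot_sub_lt : ‖dworkRoot p - 1 - dworkPi p‖ < ‖dworkPi p‖ := by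
  have h1 : coeff 1 (thetaSeries p 1) = dworkPi p := by
    have h := congrArg (coeff 0) (isExpOf_thetaSeries (p := p) 1).2
    rw [coeff_derivative, coeff_mul] at h
    simp only [Nat.cast_zero, zero_add, mul_one, Finset.Nat.antidiagonal_zero, sum_singleton,
      coeff_zero_thetaSeries] at h
    rw [h, coeff_derivative, thetaExponent, coeff_C_mul, map_sub, coeff_X_pow, pow_one,
      coeff_one_X, if_neg (by have := hp.out.one_lt; omega : ¬ 0 + 1 = p)]
    simp
  have hs := summable_overconv dworkRadius_nonneg dworkRadius_lt_one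
    (overconv_theta_one (p := p)) (x := (1 : Cp)) norm_one.le
  rw [dworkRoot, evalSeries, ← hs.sum_add_tsum_nat_add 2, sum_range_succ, sum_range_one, pow_zero,
    mul_one, one_pow, mul_one, coeff_zero_thetaSeries, h1]
  rw [show ∀ t : Cp, 1 + dworkPi p + t - 1 - dworkPi p = t from fun t => by ring]
  -- a maximum below `|π|`
  obtain ⟨N, hN⟩ := exists_pow_lt_of_lt_one (norm_dworkPi_pos (p := p))
    (dworkRadius_lt_one (p := p))
  set M : ℝ := max (dworkRadius p ^ N)
    (((range (N + 1)).image fun k => ‖coeff (k + 2) (thetaSeries p 1)‖).max'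
      (by simp)) with hM
  have hMlt : M < ‖dworkPi p‖ := by
    refine max_lt hN ((max'_lt_iff _ _).2 fun y hy => ?_)
    obtain ⟨k, -, rfl⟩ := mem_image.1 hy
    exact small_thetaSeries.2.2.2 _ (by omega)
  refine lt_of_le_of_lt (IsUltrametricDist.norm_tsum_le_of_forall_le_of_nonneg
    ((pow_nonneg (dworkRadius_nonneg (p := p)) N).trans (le_max_left _ _)) fun k => ?_) hMlt
  rw [one_pow, mul_one]
  rcases lt_or_ge k (N + 1) with hk | hk
  · refine le_trans ?_ (le_max_right _ _)
    exact le_max' _ _ (mem_image_of_mem (fun k => ‖coeff (k + 2) (thetaSeries p 1)‖)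
      (mem_range.2 hk))
  · exact ((overconv_theta_one (k + 2)).trans
      (pow_le_pow_of_le_one dworkRadius_nonneg dworkRadius_lt_one.le (by omega))).trans
      (le_max_left _ _)

/-- **`θ (1)` is a primitive `p`th root of unity.** -/
theorem dworkRoot_spec : IsPrimitiveRoot (dworkRoot p) p := by
  refine IsPrimitiveRoot.iff_orderOf.2 (orderOf_eq_prime dworkRoot_pow fun h => ?_)
  have h2 := norm_dworkRoot_sub_lt (p := p)
  rw [h, sub_self, zero_sub, norm_neg] at h2
  exact lt_irrefl _ h2

/-- **The splitting property.** -/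
theorem evalSeries_theta_teich {r : Residue p} {a : ℕ} (ha : a ≠ 0) (hr : r ^ (p ^ a) = r) :
    ∃ m : ℕ, (m : Residue p) = ∑ j ∈ range a, r ^ (p ^ j) ∧
      evalSeries (thetaSeries p a) (teich r) = dworkRoot p ^ m := by
  set t := teich r
  set T := ∑ j ∈ range a, t ^ (p ^ j) with hT_def
  obtain ⟨m, hm⟩ := exists_nat_tendsto ha hr
  rw [← hT_def] at hm
  have hcyc : ∑ j ∈ range a, (t ^ (p ^ j)) ^ p = T := by
    simp only [← pow_mul, ← pow_succ, hT_def]
    obtain ⟨b, rfl⟩ := Nat.exists_eq_succ_of_ne_zero ha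
    rw [sum_range_succ, sum_range_succ' (fun j => t ^ p ^ j), pow_zero, pow_one, teich_pow ha hr]
  have hexp : IsExpOf (C T * thetaExponent p 1)
      (∏ j ∈ range a, rescale (t ^ (p ^ j)) (thetaSeries p 1)) := by
    have h1 : ∀ s : Finset ℕ, IsExpOf
        (∑ j ∈ s, rescale (t ^ (p ^ j)) (thetaExponent p 1))
        (∏ j ∈ s, rescale (t ^ (p ^ j)) (thetaSeries p 1)) := by
      intro s
      induction s using Finset.induction with
      | empty => simpa using isExpOf_zero
      | insert b s hb ih =>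
        rw [sum_insert hb, prod_insert hb]
        refine IsExpOf.mul ⟨?_, ?_⟩ ih
        · rw [← coeff_zero_eq_constantCoeff_apply, coeff_rescale, pow_zero, one_mul,
            coeff_zero_thetaSeries]
        · have hd : ∀ g : PowerSeries Cp, d⁄dX Cp (rescale (t ^ p ^ b) g) =
              C (t ^ p ^ b) * rescale (t ^ p ^ b) (d⁄dX Cp g) := fun g => by
            ext j
            rw [coeff_derivative, coeff_rescale, coeff_C_mul, coeff_rescale, coeff_derivative,
              pow_succ']
            ring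
          rw [hd, hd, (isExpOf_thetaSeries 1).2, map_mul, mul_assoc]
    convert h1 (range a) using 1
    ext s
    simp only [map_sum, coeff_rescale, thetaExponent, coeff_C_mul, map_sub, coeff_X, coeff_X_pow,
      pow_one]
    have h1p : (1 : ℕ) ≠ p := hp.out.one_lt.ne
    rcases eq_or_ne s 1 with rfl | hs
    · simp [h1p, hT_def, sum_mul]
    rcases eq_or_ne s p with rfl | hsp
    · rw [← sum_mul, hcyc]
    · simp [hs, hsp]
  have hint : ∀ N, IsExpOf (C (m N : Cp) * thetaExponent p 1) (thetaSeries p 1 ^ m N) := fun N => by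
    rw [map_natCast, ← nsmul_eq_mul]
    exact (isExpOf_thetaSeries 1).nsmul (m N)
  have htn : ∀ j, ‖t ^ p ^ j‖ ≤ 1 := fun j => by
    rw [norm_pow]; exact pow_le_one₀ (norm_nonneg _) (norm_teich_le r)
  have hb : ∀ j ∈ range a, Overconv (dworkRadius p) (rescale (t ^ (p ^ j)) (thetaSeries p 1)) :=
    fun j _ => overconv_theta_one.rescale (htn j)
  have hlim := tendsto_evalSeries_overconv dworkRadius_nonneg dworkRadius_lt_one
    (fun N => overconv_theta_one.pow dworkRadius_nonneg (m N))
    (Overconv.prod dworkRadius_nonneg _ hb) (fun k => tendsto_expOf hm hint hexp k)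
    (x := (1 : Cp)) norm_one.le
  have hval : ∀ N, evalSeries (thetaSeries p 1 ^ m N) (1 : Cp) = dworkRoot p ^ m N := fun N =>
    evalSeries_pow_overconv dworkRadius_nonneg dworkRadius_lt_one overconv_theta_one norm_one.le _
  rw [evalSeries_prod_overconv dworkRadius_nonneg dworkRadius_lt_one _ hb norm_one.le] at hlim
  simp only [hval, evalSeries_rescale, mul_one] at hlim
  have hred : ∀ᶠ N in atTop, (m N : Residue p) = ∑ j ∈ range a, r ^ (p ^ j) := by
    have := (tendsto_iff_norm_sub_tendsto_zero.1 hm).eventually_lt_const one_pos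
    filter_upwards [this] with N hN
    obtain ⟨x, hx, hxr⟩ := exists_ball_teich ⟨a, ha, hr⟩
    rw [← map_natCast (red p), ← hxr]
    simp only [← map_pow, ← map_sum]
    refine red_eq_red.2 ?_
    rwa [SubringClass.coe_natCast, AddSubmonoidClass.coe_finsetSum,
      Finset.sum_congr rfl (g := fun j => t ^ p ^ j) fun j _ => by rw [SubmonoidClass.coe_pow, hx]]
  obtain ⟨N₀, hN₀⟩ := eventually_atTop.1 hred
  refine ⟨m N₀, hN₀ N₀ le_rfl, ?_⟩
  rw [evalSeries_thetaSeries a (norm_teich_le r)]
  refine tendsto_nhds_unique hlim (tendsto_const_nhds.congr' ?_)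
  filter_upwards [eventually_ge_atTop N₀] with N hN
  exact pow_eq_pow_of_modEq (((CharP.natCast_eq_natCast (Residue p) p).1
    ((hN₀ N₀ le_rfl).trans (hN₀ N hN).symm))) dworkRoot_pow

end FA.GrossKoblitz

end
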