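import Fermat.Agent.GrossKoblitz.Gamma
import Fermat.Agent.GrossKoblitz.Splitting
import Fermat.Agent.GrossKoblitz.Digits
import Fermat.Agent.DworkRationality.Character
import Mathlib.NumberTheory.GaussSum
import Mathlib.FieldTheory.Finite.Trace
import Mathlib.Data.Rat.Floor

/-!
# The Gross–Koblitz formula

The sum over the units is a diagonal sum of coefficients of `exp (π (X - X ^ q))`, hence the sum
`gkSum` at the fixed point, hence a product of values of the Gamma function.
-/

set_option autoImplicit false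
set_option linter.unusedSectionVars false
set_option linter.style.haveILetI false

noncomputable section

open Finset Filter Topology

namespace FA.GrossKoblitz

open FA.DworkRationality

variable {p : ℕ} [hp : Fact p.Prime]

local notation "Cp" => PadicComplex p

/-- **The sum over the units of a subfield of the residue field.** -/
theorem sum_units_theta {f a : ℕ} (hf : f ≠ 0) (ha : a < p ^ f - 1)
    [Fintype (fixedField p f)ˣ] (b : ℤ_[p])
    (hb : ((p ^ f : ℕ) : ℤ_[p]) * b - (a : ℤ_[p]) = b) :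
    -∑ x : (fixedField p f)ˣ, teich (((x⁻¹ : (fixedField p f)ˣ) : fixedField p f) : Residue p) ^ a *
        evalSeries (thetaSeries p f) (teich ((x : fixedField p f) : Residue p)) =
      gkSum p f a b := by
  classical
  have := finite_fixedField (p := p) hf
  letI := Fintype.ofFinite (fixedField p f)
  set n := p ^ f - 1 with hn
  obtain ⟨R, hr, hR1, hR⟩ := exists_overconv_thetaSeries (p := p) f
  have hR0 : 0 ≤ R := dworkRadius_nonneg.trans hr
  have hn0 : 0 < n := by omega
  have hcard : Fintype.card (fixedField p f)ˣ = n := by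
    rw [← Nat.card_eq_fintype_card, Nat.card_units, natCard_fixedField hf]
  set t : (fixedField p f)ˣ → Cp := fun x => teich ((x : fixedField p f) : Residue p) with ht
  have htmul : ∀ x y, t (x * y) = t x * t y := fun x y => by
    simp only [ht, Units.val_mul, Subfield.coe_mul]
    exact teich_mul (isFin_of_mem hf (x : fixedField p f).2)
      (isFin_of_mem hf (y : fixedField p f).2)
  have ht1 : t 1 = 1 := by simp [ht, teich_one]
  let τ : (fixedField p f)ˣ →* Cp := { toFun := t, map_one' := ht1, map_mul' := htmul }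
  have hcompl : ∀ x, t x⁻¹ ^ a = t x ^ (n - a) := fun x => by
    have h : x⁻¹ ^ a = x ^ (n - a) := by
      refine (inv_pow x a).trans (inv_eq_of_mul_eq_one_right ?_)
      rw [← pow_add, Nat.add_sub_cancel' ha.le, ← hcard, pow_card_eq_one]
    have := congrArg τ h
    rw [map_pow, map_pow] at this
    exact this
  -- expand and exchange
  have hsum : HasSum (fun N : ℕ => PowerSeries.coeff N (thetaSeries p f) *
      (if n ∣ (N + (n - a)) then ((n : ℕ) : Cp) else 0))
      (∑ x : (fixedField p f)ˣ, t x⁻¹ ^ a * evalSeries (thetaSeries p f) (t x)) := by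
    have h1 : ∀ x, HasSum (fun N : ℕ => PowerSeries.coeff N (thetaSeries p f) * t x ^ (N + (n - a)))
        (t x⁻¹ ^ a * evalSeries (thetaSeries p f) (t x)) := fun x => by
      refine ((summable_overconv hR0 hR1 hR (x := t x) (norm_teich_le _)).hasSum.mul_left
        _).congr_fun fun N => ?_
      rw [hcompl, pow_add]
      ring
    refine (hasSum_sum fun x (_ : x ∈ (univ : Finset (fixedField p f)ˣ)) => h1 x).congr_fun
      fun N => ?_
    rw [← mul_sum]
    exact congrArg (_ * ·) (sum_teich_pow hf _).symm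
  have hinj : Function.Injective fun u : ℕ => a + n * u := fun u v h =>
    Nat.eq_of_mul_eq_mul_left hn0 (Nat.add_left_cancel h)
  rw [← hinj.hasSum_iff] at hsum
  swap
  · intro N hN
    rw [if_neg, mul_zero]
    rintro ⟨k, hk⟩
    rcases k with _ | k
    · omega
    · rw [Nat.mul_succ] at hk
      exact hN ⟨k, by show a + n * k = N; omega⟩
  have hg := gkSum_fixed f a b hb hf
  refine (HasSum.unique (hsum.neg.congr_fun fun u => ?_) hg : _)
  simp only [Function.comp_apply]
  rw [if_pos ⟨u + 1, by rw [Nat.mul_succ]; omega⟩, hn,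
    show (a : ℤ) + (((p ^ f : ℕ) : ℤ) - 1) * (u : ℤ) = ((a + n * u : ℕ) : ℤ) by
      rw [hn]; push_cast [Nat.one_le_pow f p hp.out.pos]; ring,
    thetaCoeff_natCast, Nat.cast_sub (Nat.one_le_pow f p hp.out.pos), Nat.cast_one]
  ring

/-- **The sum at the fixed point is a product over the digits.** -/
theorem gkSum_eq_prod : ∀ (f a : ℕ), a < p ^ f → ∀ bs : ℕ → ℤ_[p],
    (∀ i < f, bs i = (p : ℤ_[p]) * bs (i + 1) - ((a / p ^ i % p : ℕ) : ℤ_[p])) →
      gkSum p f a (bs f) =
        dworkPi p ^ (∑ i ∈ range f, a / p ^ i % p) * ∏ i ∈ range f, padicGamma p (bs i)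
  | 0, a, ha, bs, _ => by
    obtain rfl : a = 0 := by simpa using ha
    rw [gkSum, tsum_eq_single 0 fun m hm => by
      rw [pow_zero, Nat.cast_one, one_mul, Nat.cast_zero, add_zero, thetaCoeff_natCast,
        thetaSeries_zero, PowerSeries.coeff_one, if_neg hm, zero_mul]]
    rw [piRising_zero, mul_one, Nat.cast_zero, mul_zero, zero_add,
      show thetaCoeff p 0 0 = thetaCoeff p 0 ((0 : ℕ) : ℤ) from rfl, thetaCoeff_natCast,
      coeff_zero_thetaSeries]
    simp
  | f + 1, a, ha, bs, hbs => by
    set A := a % p ^ f with hA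
    set d := a / p ^ f % p with hd
    have hdlt : a / p ^ f < p := by
      rw [Nat.div_lt_iff_lt_mul (pow_pos hp.out.pos f), ← pow_succ']
      exact ha
    have hd' : d = a / p ^ f := Nat.mod_eq_of_lt hdlt
    have haA : a = A + p ^ f * d := by rw [hA, hd', Nat.mod_add_div]
    have hdig : ∀ i, i < f → A / p ^ i % p = a / p ^ i % p := fun i hi => by
      conv_rhs => rw [haA]
      rw [show p ^ f * d = p ^ i * (p * (p ^ (f - i - 1) * d)) by
        rw [← mul_assoc p, ← pow_succ', ← mul_assoc, ← pow_add]; congr 2; omega,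
        Nat.add_mul_div_left _ _ (pow_pos hp.out.pos i), Nat.add_mul_mod_self_left]
    have h1 := gkSum_succ f A d (Nat.mod_lt _ (pow_pos hp.out.pos f))
      (hd' ▸ hdlt) (bs (f + 1))
    rw [← haA] at h1
    rw [h1, ← hbs f (Nat.lt_succ_self f),
      gkSum_eq_prod f A (Nat.mod_lt _ (pow_pos hp.out.pos f)) bs fun i hi => by
        rw [hdig i hi]; exact hbs i (by omega),
      sum_congr rfl fun i hi => hdig i (mem_range.1 hi)]
    have h2 := padicGamma_mul_sub (p := p) (a := d) (hd' ▸ hdlt) (bs (f + 1))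
    rw [← hbs f (Nat.lt_succ_self f)] at h2
    rw [sum_range_succ, prod_range_succ, pow_add, ← hd, h2]
    field_simp [pow_ne_zero d (dworkPi_ne_zero (p := p))]

theorem isUnit_pow_sub_one {f : ℕ} (hf : f ≠ 0) : IsUnit (((p ^ f - 1 : ℕ) : ℤ_[p])) := by
  rw [PadicInt.isUnit_iff, PadicInt.norm_natCast_eq_one_iff, Nat.Prime.coprime_iff_not_dvd hp.out]
  intro h
  have h2 := two_le_prime_pow (p := p) hf
  have h3 : p ∣ p ^ f := dvd_pow_self p hf
  have h4 : p ∣ p ^ f - (p ^ f - 1) := Nat.dvd_sub h3 h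
  rw [Nat.sub_sub_self (by omega)] at h4
  exact hp.out.one_lt.ne' (Nat.dvd_one.1 h4)

variable (p) in
/-- The fractional part of `p ^ i a / (p ^ f - 1)`, as a `p`-adic integer. -/
def fracPart (f a i : ℕ) : ℤ_[p] :=
  ((a * p ^ i % (p ^ f - 1) : ℕ) : ℤ_[p]) * Ring.inverse (((p ^ f - 1 : ℕ) : ℤ_[p]))

theorem sub_one_mul_fracPart {f : ℕ} (hf : f ≠ 0) (a i : ℕ) :
    ((p ^ f - 1 : ℕ) : ℤ_[p]) * fracPart p f a i = ((a * p ^ i % (p ^ f - 1) : ℕ) : ℤ_[p]) := by
  rw [fracPart, mul_left_comm, Ring.mul_inverse_cancel _ (isUnit_pow_sub_one hf), mul_one]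

theorem coe_fracPart {f : ℕ} (hf : f ≠ 0) (a i : ℕ) :
    (fracPart p f a i : ℚ_[p]) =
      ((Int.fract (((a * p ^ i : ℕ) : ℚ) / ((p ^ f - 1 : ℕ) : ℚ)) : ℚ) : ℚ_[p]) := by
  rw [Int.fract_div_natCast_eq_div_natCast_mod, Rat.cast_div, Rat.cast_natCast, Rat.cast_natCast,
    eq_div_iff]
  · have h := congrArg (fun z : ℤ_[p] => (z : ℚ_[p])) (sub_one_mul_fracPart hf a i)
    simp only [PadicInt.coe_mul, PadicInt.coe_natCast] at h
    rw [mul_comm, h]
  · rw [Nat.cast_ne_zero]
    have := two_le_prime_pow (p := p) hf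
    omega

/-- **Gross–Koblitz over a subfield of the residue field.** -/
theorem grossKoblitz_fixedField {f a : ℕ} (hf : f ≠ 0) (ha : a < p ^ f - 1)
    [Fintype (fixedField p f)ˣ] :
    -∑ x : (fixedField p f)ˣ, teich (((x⁻¹ : (fixedField p f)ˣ) : fixedField p f) : Residue p) ^ a *
        evalSeries (thetaSeries p f) (teich ((x : fixedField p f) : Residue p)) =
      dworkPi p ^ (∑ i ∈ range f, a / p ^ i % p) *
        ∏ i ∈ range f, padicGamma p (fracPart p f a i) := by
  set n := p ^ f - 1 with hn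
  have hq : p ^ f = n + 1 := by
    have := Nat.one_le_pow f p hp.out.pos
    omega
  have hu := isUnit_pow_sub_one (p := p) hf
  set bs : ℕ → ℤ_[p] := fun i => fracPart p f a (f - i) with hbs
  have hnum : ∀ i, i ≤ f →
      (n : ℤ_[p]) * bs i = ((rotateDigits p f a i : ℕ) : ℤ_[p]) := fun i hi => by
    rw [hbs, sub_one_mul_fracPart hf, rotateDigits_eq_mod hp.out.two_le ha hi]
  have hrec : ∀ i < f, bs i = (p : ℤ_[p]) * bs (i + 1) - ((a / p ^ i % p : ℕ) : ℤ_[p]) := by
    intro i hi
    refine hu.mul_left_cancel ?_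
    rw [mul_sub, mul_left_comm, hnum i hi.le, hnum (i + 1) hi, eq_sub_iff_add_eq]
    have h := rotateDigits_succ (p := p) (f := f) (a := a) hi
    rw [hq, mul_add, mul_one] at h
    have h' : rotateDigits p f a i + n * (a / p ^ i % p) = p * rotateDigits p f a (i + 1) := by
      rw [mul_comm n]; omega
    exact_mod_cast h'
  have hfix : ((p ^ f : ℕ) : ℤ_[p]) * bs f - (a : ℤ_[p]) = bs f := by
    have h := hnum f le_rfl
    rw [rotateDigits_self hp.out.one_le ha] at h
    rw [hq, Nat.cast_add, Nat.cast_one, add_mul, one_mul, h]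
    ring
  rw [sum_units_theta hf ha (bs f) hfix, gkSum_eq_prod f a (by omega) bs hrec]
  congr 1
  -- reindex
  have h0 : fracPart p f a f = fracPart p f a 0 := by
    refine congrArg (fun k : ℕ => (k : ℤ_[p]) * _) ?_
    rw [← hn, pow_zero, mul_one, hq, mul_add, mul_one, Nat.mul_add_mod_self_right]
  rw [← prod_range_reflect (fun i => padicGamma p (fracPart p f a i)) f]
  obtain ⟨k, rfl⟩ : ∃ k, f = k + 1 := ⟨f - 1, by omega⟩
  rw [prod_range_succ', prod_range_succ
      (fun i => padicGamma p (fracPart p (k + 1) a (k + 1 - 1 - i))),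
    show k + 1 - 1 - k = 0 by omega]
  simp only [hbs, Nat.sub_zero, h0]
  refine congrArg (· * _) (prod_congr rfl fun i hi => ?_)
  rw [show k + 1 - (i + 1) = k + 1 - 1 - i by omega]

/-- **Gross–Koblitz for every finite field.** -/
theorem grossKoblitz_field (F : Type*) [Field F] [Fintype F] [Algebra (ZMod p) F] {f : ℕ}
    (hcard : Fintype.card F = p ^ f) (ω : MulChar F Cp)
    (hω : ∀ x y : F, ‖ω (x + y) - ω x - ω y‖ < 1) {a : ℕ} (ha : a < p ^ f - 1) :
    -gaussSum (ω⁻¹ ^ a)
        ((AddChar.zmodChar p (dworkRoot_pow (p := p))).compAddMonoidHom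
          (Algebra.trace (ZMod p) F).toAddMonoidHom) =
      dworkPi p ^ (∑ i ∈ range f, a / p ^ i % p) *
        ∏ i ∈ range f, padicGamma p (fracPart p f a i) := by
  classical
  have hf : f ≠ 0 := by
    rintro rfl
    simp at ha
  have hpow : ∀ x : F, x ^ p ^ f = x := fun x => by rw [← hcard]; exact FiniteField.pow_card x
  have hωpow : ∀ x : F, ω x ^ p ^ f = ω x := fun x => by rw [← map_pow, hpow]
  have hωn : ∀ x : F, ‖ω x‖ ≤ 1 := fun x =>
    norm_le_one_of_pow_eq (two_le_prime_pow hf) (hωpow x)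
  -- the embedding in the residue field
  let ι : F →+* Residue p :=
    { toFun := fun x => red p ⟨ω x, hωn x⟩
      map_one' := (congrArg (red p) (Subtype.ext (MulChar.map_one ω))).trans (map_one _)
      map_mul' := fun x y =>
        (congrArg (red p) (Subtype.ext (map_mul ω x y) : (⟨ω (x * y), hωn _⟩ : unitBall p) =
          ⟨ω x, hωn x⟩ * ⟨ω y, hωn y⟩)).trans (map_mul _ _ _)
      map_zero' := (congrArg (red p) (Subtype.ext (MulChar.map_zero ω))).trans (map_zero _)
      map_add' := fun x y => by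
        rw [← map_add]
        refine red_eq_red.2 ?_
        rw [Subring.coe_add, ← sub_sub]
        exact hω x y }
  have hιpow : ∀ x, ι x ^ p ^ f = ι x := fun x => by rw [← map_pow, hpow]
  have hteich : ∀ x, teich (ι x) = ω x := fun x =>
    teich_unique (x := ⟨ω x, hωn x⟩) hf (hωpow x) rfl
  have := finite_fixedField (p := p) hf
  letI := Fintype.ofFinite (fixedField p f)
  let φ : F ≃+* fixedField p f := RingEquiv.ofBijective
    (ι.codRestrict (fixedField p f) fun x => mem_fixedField.2 (hιpow x))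
    ((Fintype.bijective_iff_injective_and_card _).2 ⟨RingHom.injective _, by
      rw [hcard, ← Nat.card_eq_fintype_card, natCard_fixedField hf]⟩)
  have hφ : ∀ x, ((φ x : fixedField p f) : Residue p) = ι x := fun x => rfl
  rw [← grossKoblitz_fixedField hf ha, gaussSum, neg_inj,
    ← Finset.add_sum_erase univ _ (mem_univ (0 : F)), MulChar.map_zero, zero_mul, zero_add,
    ← (Units.mapEquiv φ.toMulEquiv).toEquiv.sum_comp]
  refine (sum_bij (fun (u : Fˣ) _ => (u : F)) (fun u _ => mem_erase.2 ⟨u.ne_zero, mem_univ _⟩)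
    (fun u _ v _ e => Units.ext e)
    (fun z hz => ⟨Units.mk0 z (ne_of_mem_erase hz), mem_univ _, rfl⟩) fun u _ => ?_).symm
  rw [MulChar.pow_apply_coe, MulChar.inv_apply', ← hteich, ← Units.val_inv_eq_inv_val]
  refine congrArg₂ (· * ·) ?_ ?_
  · simp only [MulEquiv.toEquiv_eq_coe, MulEquiv.coe_toEquiv, ← map_inv]
    rfl
  -- the trace
  obtain ⟨m, hm, he⟩ := evalSeries_theta_teich hf (hιpow u)
  show evalSeries (thetaSeries p f) (teich (((φ u : fixedField p f) : Residue p))) = _
  rw [hφ, he, AddChar.compAddMonoidHom_apply, AddChar.zmodChar_apply]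
  refine pow_eq_pow_of_modEq ((CharP.natCast_eq_natCast (Residue p) p).1 ?_) dworkRoot_pow
  have hrank : Module.finrank (ZMod p) F = f := by
    have h := Module.card_eq_pow_finrank (K := ZMod p) (V := F)
    rw [hcard, ZMod.card] at h
    exact (Nat.pow_right_injective hp.out.two_le h).symm
  have htr := congrArg ι (FiniteField.algebraMap_trace_eq_sum_pow (ZMod p) F (u : F))
  rw [map_sum, hrank, Nat.card_zmod] at htr
  simp only [map_pow] at htr
  rw [hm, ← htr, LinearMap.toAddMonoidHom_coe, ← map_natCast ι,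
    ← map_natCast (algebraMap (ZMod p) F), ZMod.natCast_rightInverse]

/-- **The absolute value.** -/
theorem norm_prod_padicGamma (f a S : ℕ) :
    ‖dworkPi p ^ S * ∏ i ∈ range f, padicGamma p (fracPart p f a i)‖ = ‖dworkPi p‖ ^ S := by
  rw [norm_mul, norm_pow, norm_prod, prod_eq_one fun i _ => norm_padicGamma _, mul_one]

/-- **The first term.** -/
theorem norm_prod_factorial_sub_lt {f a : ℕ} (hf : f ≠ 0) (ha : a < p ^ f - 1) :
    ‖(∏ i ∈ range f, ((a / p ^ i % p).factorial : Cp)) *
      (∏ i ∈ range f, padicGamma p (fracPart p f a i)) - 1‖ < 1 := by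
  classical
  -- `-a p ^ i / (q - 1)` has residue a rotated digit
  have hstep : ∀ i < f, ‖((a / p ^ i % p).factorial : Cp) *
      padicGamma p (fracPart p f a (f - i)) - 1‖ < 1 := by
    intro i hi
    set d := a / p ^ i % p
    have hd : d < p := Nat.mod_lt _ hp.out.pos
    have hdvd : (p : ℤ_[p]) ∣ fracPart p f a (f - i) - -(d : ℤ_[p]) := by
      refine (toZMod_eq_zero_iff).1 ?_
      have h := congrArg PadicInt.toZMod (sub_one_mul_fracPart (p := p) hf a (f - i))
      rw [rotateDigits_eq_mod hp.out.two_le ha hi.le, map_mul, map_natCast, map_natCast,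
        Nat.cast_sub (Nat.one_le_pow _ _ hp.out.pos), Nat.cast_pow, ZMod.natCast_self, zero_pow hf,
        Nat.cast_one, zero_sub, neg_one_mul] at h
      have h1 : ((rotateDigits p f a i : ℕ) : ZMod p) = (d : ZMod p) := by
        rw [rotateDigits, Nat.cast_add, Nat.cast_mul, Nat.cast_pow, ZMod.natCast_self,
          zero_pow (by omega), zero_mul, add_zero, ZMod.natCast_mod]
      rw [map_sub, map_neg, map_natCast, sub_neg_eq_add, ← h1, ← h, add_neg_cancel]
    have h2 := norm_padicGamma_sub_lt hdvd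
    rw [← padicGamma_neg_natCast hd, ← mul_sub, norm_mul]
    exact (mul_le_of_le_one_left (norm_nonneg _)
      (IsUltrametricDist.norm_natCast_le_one _ _)).trans_lt h2
  obtain ⟨k, rfl⟩ : ∃ k, f = k + 1 := ⟨f - 1, by omega⟩
  have hre : ∏ i ∈ range (k + 1), padicGamma p (fracPart p (k + 1) a i) =
      ∏ i ∈ range (k + 1), padicGamma p (fracPart p (k + 1) a (k + 1 - i)) := by
    have h0 : fracPart p (k + 1) a (k + 1) = fracPart p (k + 1) a 0 := by
      refine congrArg (fun j : ℕ => (j : ℤ_[p]) * _) ?_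
      have h1 : p ^ (k + 1) = (p ^ (k + 1) - 1) + 1 := by omega
      conv_lhs => enter [1, 2]; rw [h1]
      rw [pow_zero, mul_one, mul_add, mul_one, Nat.mul_add_mod_self_right]
    rw [← prod_range_reflect (fun i => padicGamma p (fracPart p (k + 1) a i)) (k + 1),
      prod_range_succ, show k + 1 - 1 - k = 0 by omega, prod_range_succ' _ k, Nat.sub_zero, h0]
    congr 1
    exact prod_congr rfl fun i _ => by rw [show k + 1 - (i + 1) = k + 1 - 1 - i by omega]
  rw [hre, ← prod_mul_distrib]
  refine Finset.prod_induction (fun i => ((a / p ^ i % p).factorial : Cp) *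
    padicGamma p (fracPart p (k + 1) a (k + 1 - i))) (fun z => ‖z - 1‖ < 1)
    (fun x y hx hy => ?_) (by simp) fun i hi => hstep i (mem_range.1 hi)
  rw [show x * y - 1 = x * (y - 1) + (x - 1) by ring]
  refine (IsUltrametricDist.norm_add_le_max _ _).trans_lt (max_lt ?_ hx)
  rw [norm_mul]
  refine (mul_le_of_le_one_left (norm_nonneg _) ?_).trans_lt hy
  rw [← sub_add_cancel x 1]
  exact (IsUltrametricDist.norm_add_le_max _ _).trans (max_le hx.le norm_one.le)

end FA.GrossKoblitz

end
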