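import Fermat.Agent.GrossKoblitz.Theta
import Mathlib.NumberTheory.Padics.MahlerBasis
import Mathlib.Analysis.Normed.Group.FunctionSeries

/-!
# The sums `∑ C (q m + a) (z)_m / (-π) ^ m`

Here `C` are the coefficients of `exp (π (X - X ^ q))`. Lowering `a` by one multiplies the sum by
`-(q z - a) / π`; the sum for `p q` is a product of one for `q` and one for `p`; and the diagonal
`∑ C (a + (q - 1) u)` times `1 - q` is the sum at the fixed point `(q - 1) z = a`.
-/

set_option autoImplicit false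
set_option linter.unusedSectionVars false

noncomputable section

open Finset Filter Topology

namespace FA.GrossKoblitz

open FA.DworkRationality

variable {p : ℕ} [hp : Fact p.Prime]

local notation "Cp" => PadicComplex p

variable (p) in
/-- The inclusion of `ℤ_p` in `ℂ_p`. -/
def toCp : ℤ_[p] →+* Cp := (algebraMap ℚ_[p] Cp).comp PadicInt.Coe.ringHom

theorem norm_toCp (x : ℤ_[p]) : ‖toCp p x‖ = ‖x‖ := norm_algebraMap' Cp (x : ℚ_[p])

theorem continuous_toCp : Continuous (toCp p) :=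
  ((algebraMap_isometry ℚ_[p] Cp).continuous).comp continuous_subtype_val

/-- The rising factorial of `z` divided by `(-π) ^ m`. -/
def piRising (z : ℤ_[p]) (m : ℕ) : Cp :=
  toCp p ((ascPochhammer ℤ_[p] m).eval z) * (-(dworkPi p)⁻¹) ^ m

theorem piRising_zero (z : ℤ_[p]) : piRising z 0 = 1 := by
  simp [piRising]

theorem piRising_succ (z : ℤ_[p]) (m : ℕ) :
    piRising z (m + 1) = piRising z m * (-(toCp p z + m) / dworkPi p) := by
  rw [piRising, piRising, ascPochhammer_succ_eval, map_mul, map_add, map_natCast, pow_succ]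
  ring

theorem piRising_succ_left (z : ℤ_[p]) (m : ℕ) :
    piRising z (m + 1) = -toCp p z / dworkPi p * piRising (z + 1) m := by
  rw [piRising, piRising, ascPochhammer_succ_left, Polynomial.eval_mul, Polynomial.eval_comp,
    Polynomial.eval_add, Polynomial.eval_X, Polynomial.eval_one, map_mul, pow_succ]
  ring

theorem continuous_piRising (m : ℕ) : Continuous fun z : ℤ_[p] => piRising z m :=
  (continuous_toCp.comp (Polynomial.continuous _)).mul continuous_const

theorem norm_piRising_le (z : ℤ_[p]) (m : ℕ) : ‖piRising z m‖ ≤ (p : ℝ) * (m + 1) := by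
  rw [piRising, norm_mul, norm_toCp, norm_pow, norm_neg, norm_inv, inv_pow,
    ← div_eq_mul_inv, div_le_iff₀ (pow_pos norm_dworkPi_pos m)]
  refine (PadicInt.norm_ascPochhammer_le m z).trans ?_
  rw [← norm_toCp, map_natCast, mul_comm]
  exact norm_factorial_le m

theorem summable_geometric_linear {R : ℝ} (hR : 0 ≤ R) (hR1 : R < 1) :
    Summable fun m : ℕ => R ^ m * ((p : ℝ) * (m + 1)) := by
  have h1 := summable_geometric_of_lt_one hR hR1
  have h2 : Summable fun m : ℕ => (m : ℝ) ^ 1 * R ^ m :=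
    summable_pow_mul_geometric_of_norm_lt_one 1 (by rwa [Real.norm_eq_abs, abs_of_nonneg hR])
  exact ((h2.add h1).mul_left (p : ℝ)).congr fun m => by ring

variable (p) in
/-- A bound for the coefficients. -/
theorem exists_thetaCoeff_bound (f : ℕ) : ∃ R : ℝ, 0 < R ∧ R < 1 ∧
    ∀ (N : ℤ) (n : ℕ), (n : ℤ) ≤ N → ‖thetaCoeff p f N‖ ≤ R ^ n := by
  obtain ⟨R, hr, hR1, hR⟩ := exists_overconv_thetaSeries (p := p) f
  have hR0 : 0 < R := norm_dworkPi_pos.trans_le (norm_dworkPi_le_radius.trans hr)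
  refine ⟨R, hR0, hR1, fun N n h => ?_⟩
  obtain ⟨k, rfl⟩ := Int.eq_ofNat_of_zero_le ((Int.natCast_nonneg n).trans h)
  rw [thetaCoeff_natCast]
  exact (hR k).trans (pow_le_pow_of_le_one hR0.le hR1.le (by exact_mod_cast h))

variable (p) in
theorem exists_term_bound (f : ℕ) (a : ℤ) : ∃ u : ℕ → ℝ, Summable u ∧
    ∀ (m : ℕ) (z : ℤ_[p]),
      ‖thetaCoeff p f ((p ^ f : ℕ) * (m : ℤ) + a) * piRising z m‖ ≤ u m := by
  obtain ⟨R, hR0, hR1, hR⟩ := exists_thetaCoeff_bound p f
  refine ⟨fun m => (R ^ a.natAbs)⁻¹ * (R ^ m * ((p : ℝ) * (m + 1))),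
    (summable_geometric_linear hR0.le hR1).mul_left _, fun m z => ?_⟩
  dsimp only
  rw [norm_mul, ← mul_assoc]
  refine mul_le_mul ?_ (norm_piRising_le z m) (norm_nonneg _) (by positivity)
  rw [le_inv_mul_iff₀ (pow_pos hR0 _)]
  rcases lt_or_ge ((p ^ f : ℕ) * (m : ℤ) + a) 0 with h | h
  · rw [thetaCoeff_of_neg f h, norm_zero, mul_zero]
    positivity
  · have hq : (m : ℤ) ≤ (p ^ f : ℕ) * (m : ℤ) :=
      le_mul_of_one_le_left (Int.natCast_nonneg m) (by exact_mod_cast Nat.one_le_pow f p hp.out.pos)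
    calc R ^ a.natAbs * ‖thetaCoeff p f ((p ^ f : ℕ) * (m : ℤ) + a)‖
        ≤ R ^ a.natAbs * R ^ (m - a.natAbs) :=
          mul_le_mul_of_nonneg_left (hR _ _ (by omega)) (by positivity)
      _ ≤ R ^ m := by
          rw [← pow_add]
          exact pow_le_pow_of_le_one hR0.le hR1.le (by omega)

variable (p) in
/-- `∑ C (q m + a) (z)_m / (-π) ^ m`. -/
def gkSum (f : ℕ) (a : ℤ) (z : ℤ_[p]) : Cp :=
  ∑' m : ℕ, thetaCoeff p f ((p ^ f : ℕ) * (m : ℤ) + a) * piRising z m

theorem summable_gkSum (f : ℕ) (a : ℤ) (z : ℤ_[p]) :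
    Summable fun m : ℕ => thetaCoeff p f ((p ^ f : ℕ) * (m : ℤ) + a) * piRising z m := by
  obtain ⟨u, hu, h⟩ := exists_term_bound p f a
  exact Summable.of_norm_bounded hu fun m => h m z

theorem continuous_gkSum (f : ℕ) (a : ℤ) : Continuous (gkSum p f a) := by
  obtain ⟨u, hu, h⟩ := exists_term_bound p f a
  exact continuous_tsum (fun m => continuous_const.mul (continuous_piRising m)) hu h

/-- The first term separated. -/
theorem gkSum_eq_zero_add (f : ℕ) (a : ℤ) (z : ℤ_[p]) : gkSum p f a z = thetaCoeff p f a +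
    -toCp p z / dworkPi p * gkSum p f (a + (p ^ f : ℕ)) (z + 1) := by
  rw [gkSum, (summable_gkSum f a z).tsum_eq_zero_add, piRising_zero, mul_one, Nat.cast_zero,
    mul_zero, zero_add, gkSum, ← tsum_mul_left]
  congr 1
  refine tsum_congr fun m => ?_
  rw [piRising_succ_left, show ((p ^ f : ℕ) : ℤ) * ((m + 1 : ℕ) : ℤ) + a =
    (p ^ f : ℕ) * (m : ℤ) + (a + (p ^ f : ℕ)) by push_cast; ring]
  ring

/-- **Lowering `a` by one.** -/
theorem gkSum_pred (f : ℕ) (a : ℤ) (z : ℤ_[p]) :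
    dworkPi p * gkSum p f (a - 1) z = -(((p ^ f : ℕ) : Cp) * toCp p z - a) * gkSum p f a z +
      ((p ^ f : ℕ) : Cp) * dworkPi p * thetaCoeff p f (a - (p ^ f : ℕ)) := by
  set q : ℕ := p ^ f with hq
  set h : ℕ → Cp := fun m => thetaCoeff p f ((q : ℤ) * (m : ℤ) + (a - q)) * piRising z m
  have hh : Summable h := summable_gkSum f (a - q) z
  have hs := summable_gkSum (p := p) f a z
  have hh1 : Summable fun m => h (m + 1) := (summable_nat_add_iff 1).2 hh
  have hterm : ∀ m : ℕ, dworkPi p * (thetaCoeff p f ((q : ℤ) * (m : ℤ) + (a - 1)) * piRising z m) =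
      -((q : Cp) * toCp p z - a) * (thetaCoeff p f ((q : ℤ) * (m : ℤ) + a) * piRising z m) +
        (q : Cp) * dworkPi p * (h m - h (m + 1)) := by
    intro m
    have hr := thetaCoeff_rec (p := p) f ((q : ℤ) * (m : ℤ) + a)
    rw [← hq] at hr
    push_cast at hr
    simp only [h]
    rw [piRising_succ, show (q : ℤ) * ((m + 1 : ℕ) : ℤ) + (a - q) = (q : ℤ) * (m : ℤ) + a by
      push_cast; ring, show (q : ℤ) * (m : ℤ) + (a - 1) = (q : ℤ) * (m : ℤ) + a - 1 by ring,
      show (q : ℤ) * (m : ℤ) + (a - q) = (q : ℤ) * (m : ℤ) + a - q by ring]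
    have hw : dworkPi p * (dworkPi p)⁻¹ = 1 := mul_inv_cancel₀ dworkPi_ne_zero
    rw [div_eq_mul_inv]
    linear_combination (-piRising z m) * hr -
      (piRising z m * (q : Cp) * thetaCoeff p f ((q : ℤ) * m + a) * (toCp p z + m)) * hw
  rw [gkSum, ← tsum_mul_left]
  simp only [← hq]
  rw [tsum_congr hterm, (hs.mul_left _).tsum_add ((hh.sub hh1).mul_left _), tsum_mul_left,
    tsum_mul_left, hh.tsum_sub hh1, gkSum]
  rw [hh.tsum_eq_zero_add, add_sub_cancel_right]
  simp [h, piRising_zero]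

/-- **Lowering `a` by `u`.** -/
theorem gkSum_sub (f : ℕ) (a : ℕ) (ha : a < p ^ f) (z : ℤ_[p]) (u : ℕ) :
    gkSum p f ((a : ℤ) - u) z =
      piRising (((p ^ f : ℕ) : ℤ_[p]) * z - (a : ℤ_[p])) u * gkSum p f a z := by
  induction u with
  | zero => simp [piRising_zero]
  | succ u ih =>
    have h := gkSum_pred f ((a : ℤ) - u) z
    rw [thetaCoeff_of_neg f (N := (a : ℤ) - u - (p ^ f : ℕ)) (by omega), mul_zero, add_zero, ih]
      at h
    rw [show (a : ℤ) - ((u + 1 : ℕ) : ℤ) = (a : ℤ) - u - 1 by push_cast; ring, piRising_succ]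
    refine mul_left_cancel₀ (dworkPi_ne_zero (p := p)) (h.trans ?_)
    rw [map_sub, map_mul, map_natCast, map_natCast]
    field_simp [dworkPi_ne_zero (p := p)]
    push_cast
    ring

/-- The coefficients for `p q` from those for `q` and `p`. -/
theorem thetaCoeff_succ (f A M : ℕ) (hA : A < p ^ f) :
    thetaCoeff p (f + 1) ((p ^ f * M + A : ℕ) : ℤ) = ∑ u ∈ range (M + 1),
      thetaCoeff p f ((p ^ f * u + A : ℕ) : ℤ) * thetaCoeff p 1 ((M : ℤ) - u) := by
  classical
  set Q := p ^ f with hQ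
  have hQ0 : 0 < Q := pow_pos hp.out.pos f
  rw [thetaCoeff_natCast, thetaSeries_succ, PowerSeries.coeff_mul]
  have hinj : Set.InjOn (fun u => (Q * u + A, Q * (M - u))) (range (M + 1) : Finset ℕ) :=
    fun u _ v _ e => by
      have := (Prod.ext_iff.1 e).1
      exact Nat.eq_of_mul_eq_mul_left hQ0 (Nat.add_right_cancel this)
  rw [← sum_subset (s₁ := (range (M + 1)).image fun u => (Q * u + A, Q * (M - u)))]
  · rw [sum_image hinj]
    refine sum_congr rfl fun u hu => ?_
    rw [mem_range] at hu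
    rw [PowerSeries.coeff_expand_mul, thetaCoeff_natCast,
      show (M : ℤ) - u = ((M - u : ℕ) : ℤ) by omega, thetaCoeff_natCast]
  · intro ij hij
    obtain ⟨u, hu, rfl⟩ := mem_image.1 hij
    rw [mem_range] at hu
    rw [mem_antidiagonal]
    show Q * u + A + Q * (M - u) = Q * M + A
    rw [add_right_comm, ← mul_add, Nat.add_sub_cancel' (by omega : u ≤ M)]
  · intro ij hij hnot
    by_cases hd : Q ∣ ij.2
    · obtain ⟨j, hj⟩ := hd
      rw [mem_antidiagonal, hj] at hij
      have hjM : j ≤ M := by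
        by_contra hlt
        have := Nat.mul_le_mul_left Q (Nat.succ_le_of_lt (not_le.1 hlt))
        rw [Nat.mul_succ] at this
        omega
      refine absurd (mem_image.2 ⟨M - j, mem_range.2 (by omega), Prod.ext ?_ ?_⟩) hnot
      · have : Q * (M - j) + Q * j = Q * M := by
          rw [← mul_add, Nat.sub_add_cancel hjM]
        show Q * (M - j) + A = ij.1
        omega
      · show Q * (M - (M - j)) = ij.2
        rw [Nat.sub_sub_self hjM, hj]
    · rw [PowerSeries.coeff_expand_of_not_dvd _ _ _ hd, mul_zero]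

/-- **The sum for `p q` factorises.** -/
theorem gkSum_succ (f A a : ℕ) (hA : A < p ^ f) (ha : a < p) (z : ℤ_[p]) :
    gkSum p (f + 1) ((A + p ^ f * a : ℕ) : ℤ) z =
      gkSum p f A ((p : ℤ_[p]) * z - (a : ℤ_[p])) * gkSum p 1 a z := by
  obtain ⟨R₁, hR₁0, hR₁1, hR₁⟩ := exists_thetaCoeff_bound p f
  obtain ⟨R₂, hR₂0, hR₂1, hR₂⟩ := exists_thetaCoeff_bound p 1
  set T := Real.sqrt (max R₁ R₂) with hT
  have hmax0 : 0 ≤ max R₁ R₂ := hR₁0.le.trans (le_max_left _ _)
  have hT0 : 0 ≤ T := Real.sqrt_nonneg _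
  have hT1 : T < 1 := by
    rw [hT, Real.sqrt_lt' one_pos, one_pow]
    exact max_lt hR₁1 hR₂1
  let g : ℕ → ℕ → Cp := fun m u => thetaCoeff p f ((p ^ f * u + A : ℕ) : ℤ) *
    (thetaCoeff p 1 ((p : ℤ) * m + a - u) * piRising z m)
  have hg : ∀ m u, ‖g m u‖ ≤ T ^ m * ((p : ℝ) * (m + 1)) * T ^ u := by
    intro m u
    simp only [g, norm_mul]
    rcases lt_or_ge ((p : ℤ) * m + a - u) 0 with h | h
    · rw [thetaCoeff_of_neg 1 h, norm_zero, zero_mul, mul_zero]
      positivity
    have hu : u ≤ p * m + a := by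
      zify
      linarith
    have h1 : ‖thetaCoeff p f ((p ^ f * u + A : ℕ) : ℤ)‖ ≤ (T ^ 2) ^ u := by
      rw [hT, Real.sq_sqrt hmax0]
      refine (hR₁ _ u ?_).trans (pow_le_pow_left₀ hR₁0.le (le_max_left _ _) u)
      exact_mod_cast (Nat.le_mul_of_pos_left u (pow_pos hp.out.pos f)).trans (Nat.le_add_right _ _)
    have h2 : ‖thetaCoeff p 1 ((p : ℤ) * m + a - u)‖ ≤ (T ^ 2) ^ (p * m + a - u) := by
      rw [hT, Real.sq_sqrt hmax0]
      refine (hR₂ _ (p * m + a - u) ?_).trans (pow_le_pow_left₀ hR₂0.le (le_max_right _ _) _)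
      rw [Nat.cast_sub hu]
      push_cast
      exact le_rfl
    calc ‖thetaCoeff p f ((p ^ f * u + A : ℕ) : ℤ)‖ *
          (‖thetaCoeff p 1 ((p : ℤ) * m + a - u)‖ * ‖piRising z m‖)
        ≤ (T ^ 2) ^ u * ((T ^ 2) ^ (p * m + a - u) * ((p : ℝ) * (m + 1))) :=
          mul_le_mul h1 (mul_le_mul h2 (norm_piRising_le z m) (norm_nonneg _) (by positivity))
            (by positivity) (by positivity)
      _ = T ^ (2 * (p * m + a)) * ((p : ℝ) * (m + 1)) := by
          rw [← mul_assoc, ← pow_add, ← pow_mul, Nat.add_sub_cancel' hu]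
      _ ≤ T ^ (m + u) * ((p : ℝ) * (m + 1)) := by
          refine mul_le_mul_of_nonneg_right (pow_le_pow_of_le_one hT0 hT1.le ?_) (by positivity)
          have : m ≤ p * m := Nat.le_mul_of_pos_left m hp.out.pos
          omega
      _ = _ := by rw [pow_add]; ring
  have hgs : Summable (Function.uncurry g) := by
    refine Summable.of_norm_bounded ((summable_geometric_linear (p := p) hT0 hT1).mul_of_nonneg
      (summable_geometric_of_lt_one hT0 hT1) (fun m => by positivity) fun u => by positivity)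
      fun x => hg x.1 x.2
  have hrow : ∀ m : ℕ, ∑' u, g m u =
      thetaCoeff p (f + 1) ((p ^ (f + 1) : ℕ) * (m : ℤ) + ((A + p ^ f * a : ℕ) : ℤ)) *
        piRising z m := by
    intro m
    rw [tsum_eq_sum (s := range (p * m + a + 1)) fun u hu => ?_,
      show ((p ^ (f + 1) : ℕ) : ℤ) * (m : ℤ) + ((A + p ^ f * a : ℕ) : ℤ) =
        ((p ^ f * (p * m + a) + A : ℕ) : ℤ) by push_cast; ring,
      thetaCoeff_succ f A _ hA, sum_mul]
    · refine sum_congr rfl fun u _ => ?_
      simp only [g]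
      push_cast
      ring
    · rw [mem_range, not_lt] at hu
      simp only [g]
      rw [thetaCoeff_of_neg 1 (by omega), zero_mul, mul_zero]
  rw [gkSum, ← tsum_congr hrow, ← hgs.tsum_comm]
  have hcol : ∀ u : ℕ, ∑' m, g m u = thetaCoeff p f ((p ^ f : ℕ) * (u : ℤ) + (A : ℤ)) *
      piRising ((p : ℤ_[p]) * z - (a : ℤ_[p])) u * gkSum p 1 a z := by
    intro u
    simp only [g]
    have h := gkSum_sub 1 a (by rwa [pow_one]) z u
    rw [pow_one] at h
    rw [tsum_mul_left, mul_assoc, ← h, gkSum]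
    simp only [pow_one, Nat.cast_add, Nat.cast_mul, Nat.cast_pow, ← add_sub_assoc]
  rw [tsum_congr hcol, tsum_mul_right]
  rfl

/-- **The diagonal is the sum at the fixed point.** -/
theorem gkSum_fixed (f a : ℕ) (b : ℤ_[p]) (hb : ((p ^ f : ℕ) : ℤ_[p]) * b - (a : ℤ_[p]) = b)
    (hf : f ≠ 0) :
    HasSum (fun n : ℕ => (1 - ((p ^ f : ℕ) : Cp)) *
      thetaCoeff p f ((a : ℤ) + ((p ^ f : ℕ) - 1) * (n : ℤ))) (gkSum p f a b) := by
  set q : ℕ := p ^ f with hq
  set G : ℕ → Cp := fun n => gkSum p f ((a : ℤ) + ((q : ℤ) - 1) * n) (b + n) with hG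
  have hstep : ∀ n : ℕ, G (n + 1) - G n =
      ((q : Cp) - 1) * thetaCoeff p f ((a : ℤ) + ((q : ℤ) - 1) * n) := by
    intro n
    have h1 := gkSum_eq_zero_add f ((a : ℤ) + ((q : ℤ) - 1) * n) (b + (n : ℤ_[p]))
    have h2 := gkSum_pred f ((a : ℤ) + ((q : ℤ) - 1) * n + q) (b + (n : ℤ_[p]) + 1)
    rw [← hq] at h1 h2
    rw [add_sub_cancel_right] at h2
    have hb' : (q : Cp) * toCp p b - (a : Cp) = toCp p b := by
      simpa using congrArg (toCp p) hb
    simp only [hG]
    rw [show (a : ℤ) + ((q : ℤ) - 1) * ((n + 1 : ℕ) : ℤ) = (a : ℤ) + ((q : ℤ) - 1) * n + q - 1 by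
      push_cast; ring, show b + ((n + 1 : ℕ) : ℤ_[p]) = b + n + 1 by push_cast; ring, h1]
    simp only [map_add, map_natCast, map_one] at h2 ⊢
    push_cast at h2
    refine mul_left_cancel₀ (dworkPi_ne_zero (p := p)) ?_
    field_simp [dworkPi_ne_zero (p := p)] at h2 ⊢
    linear_combination h2 - gkSum p f ((a : ℤ) + ((q : ℤ) - 1) * n + q) (b + n + 1) * hb'
  obtain ⟨R, hR0, hR1, hR⟩ := exists_thetaCoeff_bound p f
  have hq2 : 2 ≤ q := two_le_prime_pow hf
  have hbound : ∀ n m : ℕ, ((n + m : ℕ) : ℤ) ≤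
      (q : ℤ) * m + ((a : ℤ) + ((q : ℤ) - 1) * n) := fun n m => by
    have h1 : (m : ℤ) ≤ (q : ℤ) * m := le_mul_of_one_le_left (by positivity) (by omega)
    have h2 : (n : ℤ) ≤ ((q : ℤ) - 1) * n := le_mul_of_one_le_left (by positivity) (by omega)
    push_cast
    omega
  have hlim : Tendsto G atTop (𝓝 0) := by
    set K := ∑' m : ℕ, R ^ m * ((p : ℝ) * (m + 1))
    refine squeeze_zero_norm (a := fun n => R ^ n * K) (fun n => ?_)
      (by simpa using (tendsto_pow_atTop_nhds_zero_of_lt_one hR0.le hR1).mul_const K)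
    refine IsUltrametricDist.norm_tsum_le_of_forall_le_of_nonneg
      (mul_nonneg (pow_nonneg hR0.le _) (tsum_nonneg fun m => by positivity)) fun m => ?_
    rw [norm_mul]
    refine (mul_le_mul (hR _ (n + m) (hbound n m)) (norm_piRising_le _ m) (norm_nonneg _)
      (by positivity)).trans ?_
    rw [pow_add, mul_assoc]
    exact mul_le_mul_of_nonneg_left ((summable_geometric_linear hR0.le hR1).le_tsum m
      fun j _ => by positivity) (by positivity)
  have hs0 : Summable fun n : ℕ => thetaCoeff p f ((a : ℤ) + ((q : ℤ) - 1) * (n : ℤ)) := by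
    refine Summable.of_norm_bounded (summable_geometric_of_lt_one hR0.le hR1) fun n => hR _ n ?_
    have := hbound n 0
    push_cast at this ⊢
    omega
  have hsum : Summable fun n : ℕ => (1 - ((q : ℕ) : Cp)) *
      thetaCoeff p f ((a : ℤ) + ((q : ℤ) - 1) * (n : ℤ)) := hs0.mul_left _
  refine (hsum.hasSum_iff_tendsto_nat).2 ?_
  have htel : ∀ N, ∑ n ∈ range N, (1 - ((q : ℕ) : Cp)) *
      thetaCoeff p f ((a : ℤ) + ((q : ℤ) - 1) * (n : ℤ)) = G 0 - G N := by
    intro N
    rw [← sum_range_sub' G]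
    exact sum_congr rfl fun n _ => by rw [← neg_sub (G (n + 1)), hstep]; ring
  simp only [htel]
  have := (tendsto_const_nhds (x := G 0)).sub hlim
  simpa [hG] using this

end FA.GrossKoblitz

end
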