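import Fermat.Agent.GrossKoblitz.Basic

/-!
# Dwork's exponential `θ = exp (π (X - X ^ p))`

`thetaSeries p f = exp (π (X - X ^ q))`, `q = p ^ f`: it is the product of `θ (X ^ p ^ i)`, `i < f`,
its coefficients decrease geometrically, and they satisfy `N C N = π (C (N - 1) - q C (N - q))`.
-/

set_option autoImplicit false
set_option linter.unusedSectionVars false

noncomputable section

open Finset Filter Topology PowerSeries

namespace FA.GrossKoblitz

open FA.DworkRationality FA.Mazur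

variable {p : ℕ} [hp : Fact p.Prime]

local notation "Cp" => PadicComplex p

variable (p) in
/-- `π (X - X ^ q)`. -/
def thetaExponent (f : ℕ) : PowerSeries Cp :=
  C (dworkPi p) * (X - X ^ (p ^ f))

variable (p) in
/-- `exp (π (X - X ^ q))`. -/
def thetaSeries (f : ℕ) : PowerSeries Cp :=
  FA.Mazur.expSeries (thetaExponent p f)

theorem isExpOf_thetaSeries (f : ℕ) : IsExpOf (thetaExponent p f) (thetaSeries p f) :=
  isExpOf_expSeries (by
    rw [thetaExponent, map_mul, map_sub, map_pow, constantCoeff_X,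
      zero_pow (pow_ne_zero f hp.out.ne_zero), sub_zero, mul_zero])

theorem coeff_zero_thetaSeries (f : ℕ) : coeff 0 (thetaSeries p f) = 1 := by
  rw [coeff_zero_eq_constantCoeff_apply, (isExpOf_thetaSeries f).1]

theorem thetaSeries_zero : thetaSeries p 0 = 1 := by
  refine (isExpOf_thetaSeries 0).unique ?_
  rw [thetaExponent, pow_zero, pow_one, sub_self, mul_zero]
  exact isExpOf_zero

/-- The coefficients, indexed by the integers. -/
def thetaCoeff (p : ℕ) [Fact p.Prime] (f : ℕ) (N : ℤ) : PadicComplex p :=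
  if 0 ≤ N then coeff N.toNat (thetaSeries p f) else 0

theorem thetaCoeff_natCast (f n : ℕ) : thetaCoeff p f n = coeff n (thetaSeries p f) := by
  simp [thetaCoeff]

theorem thetaCoeff_of_neg (f : ℕ) {N : ℤ} (h : N < 0) : thetaCoeff p f N = 0 :=
  if_neg (not_le.2 h)

/-- **The recursion of the coefficients.** -/
theorem thetaCoeff_rec (f : ℕ) (N : ℤ) :
    (N : Cp) * thetaCoeff p f N = dworkPi p *
      (thetaCoeff p f (N - 1) - ((p ^ f : ℕ) : Cp) * thetaCoeff p f (N - (p ^ f : ℕ))) := by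
  have hq : 1 ≤ p ^ f := Nat.one_le_pow _ _ hp.out.pos
  rcases lt_trichotomy N 0 with hN | rfl | hN
  · rw [thetaCoeff_of_neg f hN, thetaCoeff_of_neg f (by omega), thetaCoeff_of_neg f (by omega)]
    ring
  · rw [thetaCoeff_of_neg f (N := 0 - 1) (by omega),
      thetaCoeff_of_neg f (N := 0 - ((p ^ f : ℕ) : ℤ)) (by omega)]
    simp
  obtain ⟨k, rfl⟩ : ∃ k : ℕ, N = (k : ℤ) + 1 := ⟨(N - 1).toNat, by omega⟩
  have h := congrArg (coeff k) (isExpOf_thetaSeries (p := p) f).2
  rw [coeff_derivative] at h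
  have hd : d⁄dX Cp (thetaExponent p f) =
      C (dworkPi p) * (1 - C ((p ^ f : ℕ) : Cp) * X ^ (p ^ f - 1)) := by
    rw [thetaExponent, Derivation.leibniz, derivative_C, smul_zero, add_zero, smul_eq_mul, map_sub,
      derivative_X, derivative_pow, derivative_X, mul_one, map_natCast]
  rw [hd, mul_assoc, coeff_C_mul, sub_mul, one_mul, map_sub, mul_assoc, coeff_C_mul,
    coeff_X_pow_mul'] at h
  rw [show ((k : ℤ) + 1) = ((k + 1 : ℕ) : ℤ) by push_cast; ring, thetaCoeff_natCast,
    show (((k + 1 : ℕ) : ℤ) - 1) = (k : ℤ) by push_cast; ring, thetaCoeff_natCast, Int.cast_natCast,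
    Nat.cast_add_one, mul_comm, h]
  congr 2
  by_cases hk : p ^ f - 1 ≤ k
  · rw [if_pos hk,
      show ((((k + 1 : ℕ) : ℤ)) - ((p ^ f : ℕ) : ℤ)) = ((k - (p ^ f - 1) : ℕ) : ℤ) by omega,
      thetaCoeff_natCast]
  · rw [if_neg hk, thetaCoeff_of_neg f (by omega)]

/-- **The product formula.** -/
theorem thetaSeries_succ (f : ℕ) : thetaSeries p (f + 1) =
    thetaSeries p f * expand (p ^ f) (pow_ne_zero f hp.out.ne_zero) (thetaSeries p 1) := by
  refine (isExpOf_thetaSeries (f + 1)).unique ?_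
  have h : thetaExponent p (f + 1) = thetaExponent p f +
      expand (p ^ f) (pow_ne_zero f hp.out.ne_zero) (thetaExponent p 1) := by
    simp only [thetaExponent, map_mul, map_sub, map_pow, expand_C, expand_X, pow_one]
    rw [← pow_mul, ← pow_succ]
    ring
  rw [h]
  exact (isExpOf_thetaSeries f).mul ((isExpOf_thetaSeries 1).expand _)

theorem coeff_eq_of_exponent {G G' E E' : PowerSeries Cp} (hE : IsExpOf G E) (hE' : IsExpOf G' E')
    {N : ℕ} (h : ∀ n, n < N → coeff n G = coeff n G') :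
    ∀ n, n < N → coeff n E = coeff n E' := by
  intro n
  induction n using Nat.strong_induction_on with
  | _ n ih =>
    intro hn
    rcases n with _ | k
    · rw [coeff_zero_eq_constantCoeff_apply, coeff_zero_eq_constantCoeff_apply, hE.1, hE'.1]
    · have h1 := congrArg (coeff k) hE.2
      have h2 := congrArg (coeff k) hE'.2
      rw [coeff_derivative, coeff_mul] at h1 h2
      refine mul_right_cancel₀ (Nat.cast_add_one_ne_zero k) (h1.trans (Eq.trans ?_ h2.symm))
      refine sum_congr rfl fun ij hij => ?_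
      rw [mem_antidiagonal] at hij
      rw [coeff_derivative, coeff_derivative, h _ (by omega), ih ij.2 (by omega) (by omega)]

/-- `exp (c X)`. -/
def expLinear (c : Cp) : PowerSeries Cp := rescale c (exp Cp)

theorem isExpOf_expLinear (c : Cp) : IsExpOf (C c * X) (expLinear c) := by
  refine ⟨?_, ?_⟩
  · rw [expLinear, ← coeff_zero_eq_constantCoeff_apply, coeff_rescale, pow_zero, one_mul]
    simp
  · ext n
    rw [Derivation.leibniz, derivative_C, smul_zero, add_zero, smul_eq_mul, derivative_X, mul_one,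
      coeff_C_mul, coeff_derivative, expLinear, coeff_rescale, coeff_rescale, coeff_exp, coeff_exp,
      Nat.factorial_succ, pow_succ', map_div₀, map_div₀, map_one, map_natCast, map_natCast,
      Nat.cast_mul, Nat.cast_add_one]
    field_simp [Nat.cast_add_one_ne_zero (R := Cp) n]

theorem norm_coeff_expLinear (c : Cp) (j : ℕ) :
    ‖coeff j (expLinear c)‖ = ‖c‖ ^ j / ‖(j.factorial : Cp)‖ := by
  rw [expLinear, coeff_rescale, coeff_exp, map_div₀, map_one, map_natCast, norm_mul, norm_div,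
    norm_one, norm_pow, mul_one_div]

variable (p) in
/-- An element of absolute value `|p| ^ ((p - 1) / p ^ 2)`. -/
def dworkScale : Cp :=
  (IsAlgClosed.exists_pow_nat_eq ((p : Cp) ^ (p - 1)) (pow_pos hp.out.pos 2)).choose

theorem dworkScale_pow : dworkScale p ^ (p ^ 2) = (p : Cp) ^ (p - 1) :=
  (IsAlgClosed.exists_pow_nat_eq ((p : Cp) ^ (p - 1)) (pow_pos hp.out.pos 2)).choose_spec

variable (p) in
/-- `|p| ^ ((p - 1) / p ^ 2)`. -/
def dworkRadius : ℝ := ‖dworkScale p‖

theorem dworkRadius_nonneg : 0 ≤ dworkRadius p := norm_nonneg _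

theorem dworkRadius_pow : dworkRadius p ^ (p ^ 2) = ‖(p : Cp)‖ ^ (p - 1) := by
  rw [dworkRadius, ← norm_pow, dworkScale_pow, norm_pow]

theorem dworkRadius_lt_one : dworkRadius p < 1 := by
  refine (pow_lt_one_iff_of_nonneg dworkRadius_nonneg (pow_ne_zero 2 hp.out.ne_zero)).1 ?_
  rw [dworkRadius_pow]
  exact pow_lt_one₀ (norm_nonneg _) (norm_natCast_prime_lt_one (p := p))
    (by have := hp.out.two_le; omega)

theorem norm_dworkPi_le_radius : ‖dworkPi p‖ ≤ dworkRadius p := by
  refine (pow_le_pow_iff_left₀ (norm_nonneg _) dworkRadius_nonneg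
    (n := (p - 1) * p ^ 2) (mul_ne_zero (by have := hp.out.two_le; omega)
      (pow_ne_zero 2 hp.out.ne_zero))).1 ?_
  rw [pow_mul, norm_dworkPi_pow, mul_comm, pow_mul, dworkRadius_pow, ← pow_mul]
  refine pow_le_pow_of_le_one (norm_nonneg _) (norm_natCast_prime_lt_one (p := p)).le ?_
  rw [sq]
  exact Nat.mul_le_mul (Nat.sub_le _ _) (Nat.sub_le _ _)

theorem dworkRadius_pow_le : dworkRadius p ^ (p ^ 2) ≤ ‖dworkPi p‖ := by
  rw [dworkRadius_pow, ← norm_dworkPi_pow, ← pow_mul]
  refine pow_le_of_le_one (norm_nonneg _) norm_dworkPi_lt_one.le (mul_ne_zero ?_ ?_) <;>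
    (have := hp.out.two_le; omega)

/-- Constant coefficient one, coefficients at most `r ^ n`, and from the second on less than
`|π|`. -/
def Small (f : PowerSeries Cp) : Prop :=
  coeff 0 f = 1 ∧ Overconv (dworkRadius p) f ∧ ‖coeff 1 f‖ ≤ ‖dworkPi p‖ ∧
    ∀ n, 2 ≤ n → ‖coeff n f‖ < ‖dworkPi p‖

theorem small_one : Small (1 : PowerSeries Cp) :=
  ⟨coeff_zero_one, overconv_one dworkRadius_nonneg, by simp [coeff_one, norm_dworkPi_pos.le],
    fun n hn => by rw [coeff_one, if_neg (by omega), norm_zero]; exact norm_dworkPi_pos⟩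

theorem Small.mul {f g : PowerSeries Cp} (hf : Small f) (hg : Small g) : Small (f * g) := by
  obtain ⟨f0, fo, f1, f2⟩ := hf
  obtain ⟨g0, go, g1, g2⟩ := hg
  have hle : ∀ h : PowerSeries Cp, Overconv (dworkRadius p) h → ∀ n, ‖coeff n h‖ ≤ 1 :=
    fun h ho n =>
    (ho n).trans (pow_le_one₀ dworkRadius_nonneg dworkRadius_lt_one.le)
  refine ⟨?_, fo.mul dworkRadius_nonneg go, ?_, fun n hn => ?_⟩
  · simp only [coeff_zero_eq_constantCoeff_apply] at f0 g0 ⊢
    rw [map_mul, f0, g0, one_mul]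
  · rw [coeff_one_mul, ← coeff_zero_eq_constantCoeff_apply, ← coeff_zero_eq_constantCoeff_apply,
      f0, g0, mul_one, mul_one]
    exact (IsUltrametricDist.norm_add_le_max _ _).trans (max_le f1 g1)
  · rw [coeff_mul]
    obtain ⟨ij, hij, hmax⟩ := IsUltrametricDist.exists_norm_finsetSum_le_of_nonempty
      (show (antidiagonal n).Nonempty from ⟨(0, n), by simp⟩)
      fun ij : ℕ × ℕ => coeff ij.1 f * coeff ij.2 g
    refine hmax.trans_lt ?_
    rw [mem_antidiagonal] at hij
    rw [norm_mul]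
    obtain ⟨i, j⟩ := ij
    simp only at hij ⊢
    rcases Nat.lt_or_ge i 2 with hi | hi
    · interval_cases i
      · rw [f0, norm_one, one_mul]
        exact g2 j (by omega)
      · rcases Nat.lt_or_ge j 2 with hj | hj
        · obtain rfl : j = 1 := by omega
          refine (mul_le_mul f1 g1 (norm_nonneg _) (norm_nonneg _)).trans_lt ?_
          exact mul_lt_of_lt_one_right norm_dworkPi_pos norm_dworkPi_lt_one
        · exact (mul_le_of_le_one_left (norm_nonneg _) (hle f fo 1)).trans_lt (g2 j hj)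
    · exact (mul_le_of_le_one_right (norm_nonneg _) (hle g go j)).trans_lt (f2 i hi)

theorem small_ahSeries : Small (rescale (dworkPi p) (ahSeries p)) := by
  have hn : ∀ n, ‖coeff n (rescale (dworkPi p) (ahSeries p))‖ ≤ ‖dworkPi p‖ ^ n := fun n => by
    rw [coeff_rescale, norm_mul, norm_pow]
    exact mul_le_of_le_one_right (by positivity) (boundedSeries_ahSeries n)
  refine ⟨?_, fun n => (hn n).trans (pow_le_pow_left₀ (norm_nonneg _) norm_dworkPi_le_radius n),
    by simpa using hn 1, fun n h => (hn n).trans_lt ?_⟩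
  · rw [coeff_rescale, pow_zero, one_mul, coeff_zero_eq_constantCoeff_apply,
      (isExpOf_ahSeries (p := p)).1]
  · exact pow_lt_self_of_lt_one₀ norm_dworkPi_pos norm_dworkPi_lt_one h

theorem exponent_bound {k : ℕ} (hk : 2 ≤ k) :
    p ^ (k - 2) * (p - 1) ^ 2 + k * (p - 1) + 1 ≤ p ^ k := by
  induction k, hk using Nat.le_induction with
  | base =>
    obtain ⟨m, hm⟩ : ∃ m, p = m + 2 := ⟨p - 2, by have := hp.out.two_le; omega⟩
    subst hm
    simp only [Nat.sub_self, pow_zero, one_mul, show m + 2 - 1 = m + 1 by omega]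
    nlinarith
  | succ k hk ih =>
    rw [show k + 1 - 2 = (k - 2) + 1 by omega, pow_succ', pow_succ' p k]
    refine le_trans ?_ (Nat.mul_le_mul_left p ih)
    rw [mul_add, mul_add, mul_one, ← mul_assoc]
    have h2 := hp.out.two_le
    have h3 : (k + 1) * (p - 1) + 1 ≤ p * (k * (p - 1)) + p := by
      rw [add_mul, one_mul]
      have : k * (p - 1) ≤ p * (k * (p - 1)) := Nat.le_mul_of_pos_left _ (by omega)
      omega
    omega

theorem small_expand {k : ℕ} (hk : 2 ≤ k) {c : Cp}
    (hc : ‖c‖ * ‖(p : Cp)‖ ^ k = ‖dworkPi p‖ ^ (p ^ k)) :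
    Small (expand (p ^ k) (pow_ne_zero k hp.out.ne_zero) (expLinear c)) := by
  set l := p ^ k with hl
  have hl0 : l ≠ 0 := pow_ne_zero k hp.out.ne_zero
  have hl2 : p ^ 2 ≤ l := Nat.pow_le_pow_right hp.out.pos hk
  have hl1 : 2 ≤ l := le_trans (by have := hp.out.two_le; nlinarith) hl2
  have hcπ : ‖c‖ ≤ ‖dworkPi p‖ * dworkRadius p ^ l := by
    refine (mul_le_mul_iff_of_pos_right (pow_pos (norm_prime_pos (p := p)) k)).1 ?_
    rw [hc, hl]
    refine (pow_le_pow_iff_left₀ (by positivity) (mul_nonneg (mul_nonneg (norm_nonneg _)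
      (pow_nonneg dworkRadius_nonneg _)) (by positivity)) (n := p - 1)
      (by have := hp.out.two_le; omega)).1 ?_
    have hr : (dworkRadius p ^ p ^ k) ^ (p - 1) = ‖(p : Cp)‖ ^ (p ^ (k - 2) * (p - 1) ^ 2) := by
      have e : p ^ k * (p - 1) = p ^ 2 * (p ^ (k - 2) * (p - 1)) := by
        rw [← mul_assoc, ← pow_add, show 2 + (k - 2) = k by omega]
      rw [← pow_mul, e, pow_mul, dworkRadius_pow, ← pow_mul]
      ring_nf
    rw [mul_pow, mul_pow, norm_dworkPi_pow, pow_right_comm ‖dworkPi p‖, norm_dworkPi_pow, hr,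
      ← pow_mul, ← pow_succ', ← pow_add]
    refine pow_le_pow_of_le_one (norm_nonneg _) (norm_natCast_prime_lt_one (p := p)).le ?_
    refine le_trans (le_of_eq ?_) (exponent_bound (p := p) hk)
    ring
  have hcoeff : ∀ j, ‖coeff (l * j) (expand l hl0 (expLinear c))‖ ≤ dworkRadius p ^ (l * j) ∧
      (j ≠ 0 → ‖coeff (l * j) (expand l hl0 (expLinear c))‖ < dworkRadius p ^ (l * j)) := by
    intro j
    have hfac : 0 < ‖(j.factorial : Cp)‖ := norm_pos_iff.2 (Nat.cast_ne_zero.2 j.factorial_ne_zero)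
    rw [coeff_expand_mul, norm_coeff_expLinear, pow_mul, div_le_iff₀ hfac, div_lt_iff₀ hfac,
      mul_comm]
    have h1 := pow_le_pow_left₀ (norm_nonneg _) hcπ j
    rw [mul_pow] at h1
    refine ⟨h1.trans (mul_le_mul_of_nonneg_right (norm_pi_pow_le_factorial j)
      (pow_nonneg (pow_nonneg dworkRadius_nonneg _) _)), fun hj => h1.trans_lt ?_⟩
    refine mul_lt_mul_of_pos_right (norm_pi_pow_lt_factorial hj) ?_
    refine pow_pos (pow_pos ?_ _) _
    exact norm_dworkPi_pos.trans_le norm_dworkPi_le_radius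
  refine ⟨?_, fun n => ?_, ?_, fun n hn => ?_⟩
  · rw [coeff_zero_eq_constantCoeff_apply]
    exact ((isExpOf_expLinear c).expand hl0).1
  · by_cases h : l ∣ n
    · obtain ⟨j, rfl⟩ := h
      exact (hcoeff j).1
    · rw [coeff_expand_of_not_dvd _ _ _ h, norm_zero]
      exact pow_nonneg dworkRadius_nonneg _
  · rw [coeff_expand_of_not_dvd _ _ _ fun h => by have := Nat.le_of_dvd one_pos h; omega, norm_zero]
    exact norm_nonneg _
  · by_cases h : l ∣ n
    · obtain ⟨j, rfl⟩ := h
      have hj : j ≠ 0 := fun e => by simp [e] at hn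
      exact ((hcoeff j).2 hj).trans_le ((pow_le_pow_of_le_one dworkRadius_nonneg
        dworkRadius_lt_one.le (hl2.trans (Nat.le_mul_of_pos_right l (Nat.pos_of_ne_zero hj)))).trans
        dworkRadius_pow_le)
    · rw [coeff_expand_of_not_dvd _ _ _ h, norm_zero]
      exact norm_dworkPi_pos

/-- **The bound for `θ`.** -/
theorem small_thetaSeries : Small (thetaSeries p 1) := by
  -- enough below every `p ^ K`
  suffices H : ∀ K : ℕ, ∃ T : PowerSeries Cp, Small T ∧
      ∀ n, n < p ^ K → coeff n (thetaSeries p 1) = coeff n T by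
    have hlt : ∀ n, ∃ K, n < p ^ K := fun n => ⟨n, n.lt_pow_self hp.out.one_lt⟩
    refine ⟨coeff_zero_thetaSeries 1, fun n => ?_, ?_, fun n hn => ?_⟩
    · obtain ⟨K, hK⟩ := hlt n
      obtain ⟨T, hT, e⟩ := H K
      rw [e n hK]; exact hT.2.1 n
    · obtain ⟨K, hK⟩ := hlt 1
      obtain ⟨T, hT, e⟩ := H K
      rw [e 1 hK]; exact hT.2.2.1
    · obtain ⟨K, hK⟩ := hlt n
      obtain ⟨T, hT, e⟩ := H K
      rw [e n hK]; exact hT.2.2.2 n hn
  intro K
  -- the factors `exp (c k X ^ p ^ k)`
  set c : ℕ → Cp := fun k => -(dworkPi p ^ (p ^ k) * ((p ^ k : ℕ) : Cp)⁻¹) with hc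
  set U : ℕ → PowerSeries Cp := fun k =>
    expand (p ^ k) (pow_ne_zero k hp.out.ne_zero) (expLinear (c k)) with hU
  set I := (range K).filter (2 ≤ ·) with hI
  have hnorm : ∀ k, ‖c k‖ * ‖(p : Cp)‖ ^ k = ‖dworkPi p‖ ^ (p ^ k) := fun k => by
    rw [hc, norm_neg, norm_mul, norm_inv, norm_pow, Nat.cast_pow, norm_pow,
      inv_mul_cancel_right₀ (pow_ne_zero k norm_prime_pos.ne')]
  have hsmall : Small (∏ k ∈ I, U k) := Finset.prod_induction U Small (fun _ _ => Small.mul)
    small_one fun k hk => small_expand (mem_filter.1 hk).2 (hnorm k)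
  refine ⟨rescale (dworkPi p) (ahSeries p) * ∏ k ∈ I, U k, small_ahSeries.mul hsmall, ?_⟩
  have hexp1 : IsExpOf (rescale (dworkPi p) (hasseSeries p Cp))
      (rescale (dworkPi p) (ahSeries p)) := by
    refine ⟨?_, ?_⟩
    · rw [← coeff_zero_eq_constantCoeff_apply, coeff_rescale, pow_zero, one_mul,
        coeff_zero_eq_constantCoeff_apply, (isExpOf_ahSeries (p := p)).1]
    · have hd : ∀ g : PowerSeries Cp, d⁄dX Cp (rescale (dworkPi p) g) =
          C (dworkPi p) * rescale (dworkPi p) (d⁄dX Cp g) := fun g => by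
        ext j
        rw [coeff_derivative, coeff_rescale, coeff_C_mul, coeff_rescale, coeff_derivative,
          pow_succ']
        ring
      rw [hd, hd, (isExpOf_ahSeries (p := p)).2, map_mul, mul_assoc]
  have hexp2 : ∀ J : Finset ℕ,
      IsExpOf (∑ k ∈ J, expand (p ^ k) (pow_ne_zero k hp.out.ne_zero) (C (c k) * X))
        (∏ k ∈ J, U k) := by
    intro J
    induction J using Finset.induction with
    | empty => simpa using isExpOf_zero
    | insert a s ha ih =>
      rw [sum_insert ha, prod_insert ha]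
      exact ((isExpOf_expLinear (c a)).expand _).mul ih
  refine coeff_eq_of_exponent (isExpOf_thetaSeries 1) (hexp1.mul (hexp2 I)) fun n hn => ?_
  rw [map_add, map_sum, coeff_rescale]
  simp only [map_mul, expand_C, expand_X, coeff_C_mul, coeff_X_pow, thetaExponent, hasseSeries,
    coeff_mk, map_sub, coeff_X, pow_one, mul_ite, mul_one, mul_zero]
  by_cases hpow : ∃ i, n = p ^ i
  · obtain ⟨i, rfl⟩ := hpow
    have hinj : ∀ k, p ^ i = p ^ k ↔ i = k := fun k =>
      (Nat.pow_right_injective hp.out.two_le).eq_iff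
    simp only [hinj]
    rw [sum_ite_eq]
    have hiK : i < K := (Nat.pow_lt_pow_iff_right hp.out.one_lt).1 hn
    simp only [hI, mem_filter, mem_range, hiK, true_and]
    have h3 : ∃ j, p ^ i = p ^ j := ⟨i, rfl⟩
    rcases i with _ | _ | i
    · rw [if_pos h3]
      simp [hp.out.one_lt.ne]
    · rw [if_pos h3]
      simp [hp.out.one_lt.ne', dworkPi_pow_prime]
      field_simp [natCast_prime_ne_zero (p := p)]
    · have e1 : p ^ (i + 1 + 1) ≠ 1 := (Nat.one_lt_pow (by omega) hp.out.one_lt).ne'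
      have e2 : p ^ (i + 1 + 1) ≠ p := fun e => by
        have := (hinj 1).1 (by rw [e, pow_one]); omega
      simp [h3, e2, hc, hp.out.one_lt.ne']
  · rw [if_neg hpow, zero_add, sum_eq_zero fun k _ => if_neg fun e => hpow ⟨k, e⟩,
      if_neg fun e => hpow ⟨0, by rw [e, pow_zero]⟩, if_neg fun e => hpow ⟨1, by rw [e, pow_one]⟩,
      sub_zero, mul_zero]

/-- **Geometric decrease of the coefficients.** -/
theorem exists_overconv_thetaSeries : ∀ f : ℕ,
    ∃ R : ℝ, dworkRadius p ≤ R ∧ R < 1 ∧ Overconv R (thetaSeries p f)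
  | 0 => ⟨dworkRadius p, le_rfl, dworkRadius_lt_one, by
      rw [thetaSeries_zero]; exact overconv_one dworkRadius_nonneg⟩
  | f + 1 => by
    obtain ⟨R, hr, hR1, hR⟩ := exists_overconv_thetaSeries f
    have hq : p ^ f ≠ 0 := pow_ne_zero f hp.out.ne_zero
    set S : ℝ := dworkRadius p ^ ((((p ^ f : ℕ) : ℝ))⁻¹)
    have hS : S ^ (p ^ f) = dworkRadius p := Real.rpow_inv_natCast_pow dworkRadius_nonneg hq
    have hS0 : 0 ≤ S := Real.rpow_nonneg dworkRadius_nonneg _
    have hS1 : S < 1 := by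
      refine (pow_lt_one_iff_of_nonneg hS0 hq).1 ?_
      rw [hS]; exact dworkRadius_lt_one
    have hmax : 0 ≤ max R S := hS0.trans (le_max_right _ _)
    refine ⟨max R S, hr.trans (le_max_left _ _), max_lt hR1 hS1, ?_⟩
    rw [thetaSeries_succ]
    refine (hR.mono (dworkRadius_nonneg.trans hr) (le_max_left _ _)).mul hmax fun n => ?_
    by_cases h : p ^ f ∣ n
    · obtain ⟨j, rfl⟩ := h
      rw [coeff_expand_mul, pow_mul]
      refine (small_thetaSeries.2.1 j).trans (pow_le_pow_left₀ dworkRadius_nonneg ?_ j)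
      rw [← hS]
      exact pow_le_pow_left₀ hS0 (le_max_right _ _) _
    · rw [coeff_expand_of_not_dvd _ _ _ h, norm_zero]
      exact pow_nonneg hmax _

end FA.GrossKoblitz

end
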